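import Mathlib
import Fermat.Agent.Lib.Red.GaussRing
import Fermat.Agent.S28.Rot
import Fermat.Prelude.Thm_ModularCurve_coeffMap_qExpand

/-!
# RED-K, consumer side: functoriality of the Gauss ring

The Gauss ring `gaussRing A π ⊆ L((q))` and its reduction map `red A π` are compatible with every
triple of ring endomorphisms of `L((q))`, `A((q))`, `k((q))` which correspond to each other
(`transport_mem`, `transport_red`).  Instances:

* coefficientwise maps (`coeffMap`): the action of the decomposition group;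
* the substitutions `q ↦ q^n` (`qExpand`);
* the substitutions `q ↦ ζ q` (`rot`).
-/

set_option autoImplicit false

namespace Fermat.Agent.ESJ.RedK

open HahnSeries ModularCurve Fermat.Agent.Lib.Red Fermat.Agent.S28.Chain

noncomputable section

variable {L : Type*} [Field L] (A : ValuationSubring L) {k : Type*} [Field k] (π : A →+* k)

/-! ### The general transport statement -/

section Transport

variable (TL : LaurentSeries L →+* LaurentSeries L) (TA : LaurentSeries A →+* LaurentSeries A)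
  (Tk : LaurentSeries k →+* LaurentSeries k)

theorem transport_mem (h1 : ∀ s, incl A (TA s) = TL (incl A s))
    (h2 : ∀ s, rbar A π (TA s) = Tk (rbar A π s))
    {y : LaurentSeries L} (hy : y ∈ gaussRing A π) : TL y ∈ gaussRing A π := by
  obtain ⟨s, P, hs, hsP⟩ := (mem_gaussRing_iff A π _).mp hy
  refine ⟨TA s, TA P, ?_, ?_⟩
  · rw [h2]
    exact (map_ne_zero Tk).mpr hs
  · rw [h1, h1, ← map_mul, hsP]

theorem transport_red (h1 : ∀ s, incl A (TA s) = TL (incl A s))
    (h2 : ∀ s, rbar A π (TA s) = Tk (rbar A π s))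
    {y : LaurentSeries L} (hy : y ∈ gaussRing A π) (hy' : TL y ∈ gaussRing A π) :
    red A π ⟨TL y, hy'⟩ = Tk (red A π ⟨y, hy⟩) := by
  obtain ⟨s, P, hs, hsP⟩ := (mem_gaussRing_iff A π _).mp hy
  have hs' : rbar A π (TA s) ≠ 0 := by
    rw [h2]
    exact (map_ne_zero Tk).mpr hs
  have hsP' : incl A (TA s) * TL y = incl A (TA P) := by
    rw [h1, h1, ← map_mul, hsP]
  rw [red_eq A π ⟨TL y, hy'⟩ hs' hsP', red_eq A π ⟨y, hy⟩ hs hsP, h2, h2, map_div₀]

end Transport

/-! ### Coefficientwise maps -/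

section Coeff

variable (Φ : L →+* L) (φ : A →+* A) (φk : k →+* k)

theorem coeffMap_mem_gaussRing (h1 : ∀ a : A, ((φ a : A) : L) = Φ (a : L))
    (h2 : ∀ a : A, π (φ a) = φk (π a))
    {y : LaurentSeries L} (hy : y ∈ gaussRing A π) : coeffMap Φ y ∈ gaussRing A π := by
  refine transport_mem A π (coeffMap Φ) (coeffMap φ) (coeffMap φk) ?_ ?_ hy
  · intro s
    ext n
    exact h1 _
  · intro s
    ext n
    exact h2 _

theorem red_coeffMap (h1 : ∀ a : A, ((φ a : A) : L) = Φ (a : L))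
    (h2 : ∀ a : A, π (φ a) = φk (π a))
    {y : LaurentSeries L} (hy : y ∈ gaussRing A π) (hy' : coeffMap Φ y ∈ gaussRing A π) :
    red A π ⟨coeffMap Φ y, hy'⟩ = coeffMap φk (red A π ⟨y, hy⟩) := by
  refine transport_red A π (coeffMap Φ) (coeffMap φ) (coeffMap φk) ?_ ?_ hy hy'
  · intro s
    ext n
    exact h1 _
  · intro s
    ext n
    exact h2 _

end Coeff

/-! ### The substitution `q ↦ q^n` -/

section QExpand

variable (n : ℕ) [NeZero n]

theorem qExpand_mem_gaussRing {y : LaurentSeries L} (hy : y ∈ gaussRing A π) :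
    qExpand L n y ∈ gaussRing A π :=
  transport_mem A π (qExpand L n) (qExpand A n) (qExpand k n)
    (fun s => coeffMap_qExpand _ n s) (fun s => coeffMap_qExpand _ n s) hy

theorem red_qExpand {y : LaurentSeries L} (hy : y ∈ gaussRing A π)
    (hy' : qExpand L n y ∈ gaussRing A π) :
    red A π ⟨qExpand L n y, hy'⟩ = qExpand k n (red A π ⟨y, hy⟩) :=
  transport_red A π (qExpand L n) (qExpand A n) (qExpand k n)
    (fun s => coeffMap_qExpand _ n s) (fun s => coeffMap_qExpand _ n s) hy hy'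

end QExpand

/-! ### The substitution `q ↦ ζ q` -/

section Rot

variable (ζ : Aˣ)

theorem rot_mem_gaussRing {y : LaurentSeries L} (hy : y ∈ gaussRing A π) :
    rot (Units.map (A.subtype : A →* L) ζ) y ∈ gaussRing A π :=
  transport_mem A π (rot (Units.map (A.subtype : A →* L) ζ)) (rot ζ)
    (rot (Units.map (π : A →* k) ζ))
    (fun s => coeffMap_rot _ ζ s) (fun s => coeffMap_rot _ ζ s) hy

theorem red_rot {y : LaurentSeries L} (hy : y ∈ gaussRing A π)
    (hy' : rot (Units.map (A.subtype : A →* L) ζ) y ∈ gaussRing A π) :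
    red A π ⟨rot (Units.map (A.subtype : A →* L) ζ) y, hy'⟩ =
      rot (Units.map (π : A →* k) ζ) (red A π ⟨y, hy⟩) :=
  transport_red A π (rot (Units.map (A.subtype : A →* L) ζ)) (rot ζ)
    (rot (Units.map (π : A →* k) ζ))
    (fun s => coeffMap_rot _ ζ s) (fun s => coeffMap_rot _ ζ s) hy hy'

end Rot

/-! ### Products in the Gauss ring -/

theorem red_mul_mk {y z : LaurentSeries L} (hy : y ∈ gaussRing A π) (hz : z ∈ gaussRing A π)
    (hyz : y * z ∈ gaussRing A π) :
    red A π ⟨y * z, hyz⟩ = red A π ⟨y, hy⟩ * red A π ⟨z, hz⟩ := by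
  have e : (⟨y * z, hyz⟩ : gaussRing A π) = ⟨y, hy⟩ * ⟨z, hz⟩ := rfl
  rw [e, map_mul]

theorem red_pow_mk {y : LaurentSeries L} (hy : y ∈ gaussRing A π) (m : ℕ)
    (hym : y ^ m ∈ gaussRing A π) :
    red A π ⟨y ^ m, hym⟩ = red A π ⟨y, hy⟩ ^ m := by
  have e : (⟨y ^ m, hym⟩ : gaussRing A π) = ⟨y, hy⟩ ^ m := rfl
  rw [e, map_pow]

theorem prod_mem_gaussRing {ι : Type*} (s : Finset ι) (f : ι → LaurentSeries L)
    (hf : ∀ i ∈ s, f i ∈ gaussRing A π) : ∏ i ∈ s, f i ∈ gaussRing A π :=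
  Subring.prod_mem _ hf

theorem red_prod_mk {ι : Type*} (s : Finset ι) (f : ι → LaurentSeries L)
    (hf : ∀ i, f i ∈ gaussRing A π) (h : ∏ i ∈ s, f i ∈ gaussRing A π) :
    red A π ⟨∏ i ∈ s, f i, h⟩ = ∏ i ∈ s, red A π ⟨f i, hf i⟩ := by
  have e : (⟨∏ i ∈ s, f i, h⟩ : gaussRing A π) = ∏ i ∈ s, (⟨f i, hf i⟩ : gaussRing A π) := by
    apply Subtype.ext
    exact (map_prod (gaussRing A π).subtype (fun i => (⟨f i, hf i⟩ : gaussRing A π)) s).symm
  rw [e, map_prod]

/-! ### The relation "`y` lies in the Gauss ring and reduces to `g`" -/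

/-- `y` lies in the Gauss ring and its reduction is `g`. -/
def RedTo (y : LaurentSeries L) (g : LaurentSeries k) : Prop :=
  ∃ h : y ∈ gaussRing A π, red A π ⟨y, h⟩ = g

namespace RedTo

variable {A π}

theorem mk {y : LaurentSeries L} (h : y ∈ gaussRing A π) : RedTo A π y (red A π ⟨y, h⟩) :=
  ⟨h, rfl⟩

theorem mem {y : LaurentSeries L} {g : LaurentSeries k} (h : RedTo A π y g) :
    y ∈ gaussRing A π := h.1

theorem unique {y : LaurentSeries L} {g g' : LaurentSeries k} (h : RedTo A π y g)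
    (h' : RedTo A π y g') : g = g' := by
  obtain ⟨h1, rfl⟩ := h
  obtain ⟨h2, rfl⟩ := h'
  rfl

theorem congr_left {y y' : LaurentSeries L} {g : LaurentSeries k} (h : RedTo A π y g)
    (e : y = y') : RedTo A π y' g := e ▸ h

theorem congr_right {y : LaurentSeries L} {g g' : LaurentSeries k} (h : RedTo A π y g)
    (e : g = g') : RedTo A π y g' := e ▸ h

theorem zero : RedTo A π (0 : LaurentSeries L) 0 :=
  ⟨(gaussRing A π).zero_mem, map_zero (red A π)⟩

theorem one : RedTo A π (1 : LaurentSeries L) 1 :=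
  ⟨(gaussRing A π).one_mem, map_one (red A π)⟩

theorem mul {y z : LaurentSeries L} {g g' : LaurentSeries k} (h : RedTo A π y g)
    (h' : RedTo A π z g') : RedTo A π (y * z) (g * g') := by
  obtain ⟨h1, rfl⟩ := h
  obtain ⟨h2, rfl⟩ := h'
  exact ⟨(gaussRing A π).mul_mem h1 h2, red_mul_mk A π h1 h2 _⟩

theorem pow {y : LaurentSeries L} {g : LaurentSeries k} (h : RedTo A π y g) (m : ℕ) :
    RedTo A π (y ^ m) (g ^ m) := by
  obtain ⟨h1, rfl⟩ := h
  exact ⟨(gaussRing A π).pow_mem h1 m, red_pow_mk A π h1 m _⟩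

theorem inv {y : LaurentSeries L} {g : LaurentSeries k} (h : RedTo A π y g) (hg : g ≠ 0) :
    RedTo A π y⁻¹ g⁻¹ := by
  obtain ⟨h1, rfl⟩ := h
  exact ⟨inv_mem_gaussRing A π h1 hg, red_inv A π h1 hg _⟩

theorem prod {ι : Type*} (s : Finset ι) (f : ι → LaurentSeries L) (g : ι → LaurentSeries k)
    (h : ∀ i ∈ s, RedTo A π (f i) (g i)) : RedTo A π (∏ i ∈ s, f i) (∏ i ∈ s, g i) := by
  classical
  induction s using Finset.induction_on with
  | empty => simpa using one (A := A) (π := π)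
  | insert a s ha ih =>
    rw [Finset.prod_insert ha, Finset.prod_insert ha]
    exact (h a (Finset.mem_insert_self a s)).mul
      (ih fun i hi => h i (Finset.mem_insert_of_mem hi))

theorem const (a : A) : RedTo A π (HahnSeries.C (a : L)) (HahnSeries.C (π a)) :=
  ⟨C_mem_gaussRing A π a.2, red_C A π a.2 _⟩

theorem coeffMap {y : LaurentSeries L} {g : LaurentSeries k} (h : RedTo A π y g)
    (Φ : L →+* L) (φ : A →+* A) (φk : k →+* k) (h1 : ∀ a : A, ((φ a : A) : L) = Φ (a : L))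
    (h2 : ∀ a : A, π (φ a) = φk (π a)) :
    RedTo A π (ModularCurve.coeffMap Φ y) (ModularCurve.coeffMap φk g) := by
  obtain ⟨hy, rfl⟩ := h
  exact ⟨coeffMap_mem_gaussRing A π Φ φ φk h1 h2 hy, red_coeffMap A π Φ φ φk h1 h2 hy _⟩

theorem qExpand {y : LaurentSeries L} {g : LaurentSeries k} (h : RedTo A π y g) (n : ℕ)
    [NeZero n] : RedTo A π (ModularCurve.qExpand L n y) (ModularCurve.qExpand k n g) := by
  obtain ⟨hy, rfl⟩ := h
  exact ⟨qExpand_mem_gaussRing A π n hy, red_qExpand A π n hy _⟩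

theorem rot {y : LaurentSeries L} {g : LaurentSeries k} (h : RedTo A π y g) (ζ : Aˣ) :
    RedTo A π (Fermat.Agent.S28.Chain.rot (Units.map (A.subtype : A →* L) ζ) y)
      (Fermat.Agent.S28.Chain.rot (Units.map (π : A →* k) ζ) g) := by
  obtain ⟨hy, rfl⟩ := h
  exact ⟨rot_mem_gaussRing A π ζ hy, red_rot A π ζ hy _⟩

/-- Descent of a constant factor: if `y` is in the Gauss ring and `C a * y` reduces to something
nonzero, then `y` is `C a⁻¹ * (C a * y)` with `a⁻¹ ∈ A`. -/
theorem of_const_mul (hπ : ∀ a : A, ¬ IsUnit a → π a = 0) {a : L} (ha0 : a ≠ 0)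
    {y y' : LaurentSeries L} {u u' : LaurentSeries k}
    (hy : RedTo A π (HahnSeries.C a * y) u) (hy' : RedTo A π (HahnSeries.C a * y') u')
    (hu' : u' ≠ 0) (hmem : y' ∈ gaussRing A π) :
    ∃ b : A, (b : L) = a⁻¹ ∧ RedTo A π y (HahnSeries.C (π b) * u) := by
  obtain ⟨hay', rfl⟩ := hy'
  have hinv := inv_mem_of_red_ne_zero A π hπ hmem hay' hu'
  refine ⟨⟨a⁻¹, hinv⟩, rfl, ?_⟩
  have h := (const (A := A) (π := π) ⟨a⁻¹, hinv⟩).mul hy
  refine h.congr_left ?_
  show HahnSeries.C a⁻¹ * (HahnSeries.C a * y) = y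
  rw [← mul_assoc, ← map_mul, inv_mul_cancel₀ ha0, map_one, one_mul]

end RedTo

end

end Fermat.Agent.ESJ.RedK
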