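import Fermat.Agent.ESJ.RedK.KummerRootOfK18
import Fermat.Agent.ESJ.HeckeInputs
import Fermat.Agent.ESJ.Cong.ConjNormAnalytic

/-!
# RED-K: norm descent of (K18) from level `N q` to level `N`

For a prime `q ∤ N` the extension `F_{Nq} / F_N` has degree `q + 1`.  If `p` is prime to `q + 1`
then (K18) for the exponent `p` at level `N q` implies (K18) at level `N`:
a function `h ∈ F_N` which is a `p`-th power `g ^ p` in `F_{Nq}` satisfies
`h ^ (q + 1) = Nm(g) ^ p`, hence is a `p`-th power in `F_N`.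

* `k18_descent` : the general statement;
* `k18_of_red23` : (K18) at all levels `M` and primes `ℓ ∤ M` with
  `5 ≤ ℓ ∨ (ℓ = 3 ∧ 2 ∣ M) ∨ (ℓ = 2 ∧ 3 ∣ M)` implies (K18) at all levels and all `ℓ ∤ N`;
* `torsionESRelation_of_red23` : the resulting `TorsionESRelation N p`.
-/

set_option autoImplicit false

namespace Fermat.Agent.ESJ.RedK

open ModularCurve AlgebraicCurve HahnSeries Fermat.Agent.Lib.Red Fermat.Agent.S24
open Fermat.Agent.ESJ.Cong Fermat.Agent.ESJ.HeckeInputs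

noncomputable section

/-- **Norm descent of (K18)** along `F_N ⊆ F_{Nq}` (degree `q + 1`, prime to `p`). -/
theorem k18_descent (N q : ℕ) [NeZero N] [NeZero q] (hq : q.Prime) (hqN : ¬ q ∣ N)
    (A : ValuationSubring KQ) (hNk : (N : IsLocalRing.ResidueField A) ≠ 0)
    (hMk : ((N * q : ℕ) : IsLocalRing.ResidueField A) ≠ 0) (p : ℕ)
    (hcop : Nat.Coprime (q + 1) p) (hK : K18 (N * q) A hMk p) : K18 N A hNk p := by
  intro h hO hord hred
  have hh1 : RedTo A (IsLocalRing.residue A) (h : LaurentSeries KQ) 1 :=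
    (redTo_iff hNk h 1).mpr ⟨hO, by rw [hred]; rfl⟩
  have hαh : RedTo A (IsLocalRing.residue A)
      ((heckeAlphaBar KQ N q h : modularFunctionFieldBar (N * q)) : LaurentSeries KQ) 1 := by
    rw [coe_heckeAlphaBar]
    exact hh1
  obtain ⟨hO', hred'⟩ := (redTo_iff hMk (heckeAlphaBar KQ N q h) 1).mp hαh
  have hord' : ∀ Q : Place KQ (modularFunctionFieldBar (N * q)),
      (p : ℤ) ∣ Q.ord (heckeAlphaBar KQ N q h) := by
    intro Q
    rw [Place.ord_restrictAlong (heckeAlphaBar KQ N q) (heckeAlphaBarIntegral N q)]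
    exact Dvd.dvd.mul_left (hord _) _
  obtain ⟨g, hg⟩ := hK (heckeAlphaBar KQ N q h) hO' hord' (Subtype.ext hred')
  have hh0 : h ≠ 0 := by
    rintro rfl
    have h0 : RedTo A (IsLocalRing.residue A)
        (((0 : modularFunctionFieldBar N)) : LaurentSeries KQ) 0 := RedTo.zero
    exact zero_ne_one (h0.unique hh1)
  -- the norm
  letI := algebraAlong (heckeAlphaBar KQ N q)
  have hnorm : h ^ (q + 1) = (Algebra.norm (modularFunctionFieldBar N) g) ^ p := by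
    have h1 : Algebra.norm (modularFunctionFieldBar N) (heckeAlphaBar KQ N q h) =
        h ^ (q + 1) := by
      have h2 := Algebra.norm_algebraMap (S := modularFunctionFieldBar (N * q)) h
      rw [ConjAnalytic.finrank_alpha N q hq hqN] at h2
      exact h2
    rw [← h1, ← hg, map_pow]
  -- Bezout
  have hgcd : (Nat.gcd (q + 1) p : ℤ) = ((q + 1 : ℕ) : ℤ) * Nat.gcdA (q + 1) p +
      (p : ℤ) * Nat.gcdB (q + 1) p := Nat.gcd_eq_gcd_ab (q + 1) p
  rw [hcop.gcd_eq_one] at hgcd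
  refine ⟨(Algebra.norm (modularFunctionFieldBar N) g) ^ (Nat.gcdA (q + 1) p) *
    h ^ (Nat.gcdB (q + 1) p), ?_⟩
  rw [mul_pow, ← zpow_natCast (_ ^ Nat.gcdA (q + 1) p) p, ← zpow_mul,
    mul_comm (Nat.gcdA (q + 1) p) (p : ℤ), zpow_mul, zpow_natCast, ← hnorm,
    ← zpow_natCast (h ^ Nat.gcdB (q + 1) p) p, ← zpow_mul, ← zpow_natCast h (q + 1), ← zpow_mul,
    ← zpow_add₀ hh0, mul_comm (Nat.gcdB (q + 1) p) (p : ℤ), ← hgcd]
  simp

/-- **(K18) everywhere from (K18) at the levels with a good base function**: all `ℓ ≥ 5`,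
`ℓ = 3` at even levels, `ℓ = 2` at levels divisible by `3`. -/
theorem k18_of_red23
    (hK : ∀ (M : ℕ) [NeZero M] (ℓ : ℕ), ℓ.Prime → ¬ ℓ ∣ M →
      (5 ≤ ℓ ∨ (ℓ = 3 ∧ 2 ∣ M) ∨ (ℓ = 2 ∧ 3 ∣ M)) →
      ∀ A : ValuationSubring KQ, A.LiesOverPrime ℓ →
      ∀ hMk : (M : IsLocalRing.ResidueField A) ≠ 0, ∀ p : ℕ, p.Prime → p ≠ ℓ → K18 M A hMk p)
    (N : ℕ) [NeZero N] (ℓ : ℕ) (hℓ : ℓ.Prime) (hℓN : ¬ ℓ ∣ N) (A : ValuationSubring KQ)
    (hA : A.LiesOverPrime ℓ) (hNk : (N : IsLocalRing.ResidueField A) ≠ 0) (p : ℕ)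
    (hp : p.Prime) (hpℓ : p ≠ ℓ) : K18 N A hNk p := by
  by_cases h5 : 5 ≤ ℓ
  · exact hK N ℓ hℓ hℓN (Or.inl h5) A hA hNk p hp hpℓ
  · have hℓ23 : ℓ = 2 ∨ ℓ = 3 := by
      have h2 := hℓ.two_le
      have h4 : ℓ ≠ 4 := by
        rintro rfl
        exact absurd hℓ (by decide)
      omega
    rcases hℓ23 with rfl | rfl
    · -- `ℓ = 2`, auxiliary prime `3`
      by_cases h3 : 3 ∣ N
      · exact hK N 2 hℓ hℓN (Or.inr (Or.inr ⟨rfl, h3⟩)) A hA hNk p hp hpℓ
      · have hM : ¬ 2 ∣ N * 3 := by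
          intro h
          rcases (Nat.Prime.dvd_mul Nat.prime_two).mp h with h' | h'
          · exact hℓN h'
          · omega
        have hMk := natCast_residue_ne_zero (N := N * 3) hℓ hA hM
        refine k18_descent N 3 Nat.prime_three h3 A hNk hMk p ?_
          (hK (N * 3) 2 hℓ hM (Or.inr (Or.inr ⟨rfl, dvd_mul_left 3 N⟩)) A hA hMk p hp hpℓ)
        -- `Coprime 4 p` for an odd prime `p`
        have h22 : Nat.Coprime 2 p := (Nat.coprime_primes Nat.prime_two hp).mpr (Ne.symm hpℓ)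
        exact Nat.Coprime.mul_left h22 h22
    · -- `ℓ = 3`, auxiliary prime `2`
      by_cases h2 : 2 ∣ N
      · exact hK N 3 hℓ hℓN (Or.inr (Or.inl ⟨rfl, h2⟩)) A hA hNk p hp hpℓ
      · have hM : ¬ 3 ∣ N * 2 := by
          intro h
          rcases (Nat.Prime.dvd_mul Nat.prime_three).mp h with h' | h'
          · exact hℓN h'
          · omega
        have hMk := natCast_residue_ne_zero (N := N * 2) hℓ hA hM
        refine k18_descent N 2 Nat.prime_two h2 A hNk hMk p ?_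
          (hK (N * 2) 3 hℓ hM (Or.inr (Or.inl ⟨rfl, dvd_mul_left 2 N⟩)) A hA hMk p hp hpℓ)
        exact (Nat.coprime_primes Nat.prime_three hp).mpr (Ne.symm hpℓ)

/-- `TorsionESRelation N p` from (K18) at the levels with a good base function. -/
theorem torsionESRelation_of_red23
    (hK : ∀ (M : ℕ) [NeZero M] (ℓ : ℕ), ℓ.Prime → ¬ ℓ ∣ M →
      (5 ≤ ℓ ∨ (ℓ = 3 ∧ 2 ∣ M) ∨ (ℓ = 2 ∧ 3 ∣ M)) →
      ∀ A : ValuationSubring KQ, A.LiesOverPrime ℓ →
      ∀ hMk : (M : IsLocalRing.ResidueField A) ≠ 0, ∀ p : ℕ, p.Prime → p ≠ ℓ → K18 M A hMk p)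
    (N p : ℕ) [NeZero N] : TorsionESRelation N p :=
  torsionESRelation_of_k18_prime N p (fun ℓ hℓ hℓN A hA hNk q hq hqℓ =>
    k18_of_red23 hK N ℓ hℓ hℓN A hA hNk q hq hqℓ)

end

end Fermat.Agent.ESJ.RedK
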