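/-
RED-K (helper95): (K18), `TorsionESRelation` and `RedTorsionInjective` from good reduction data.

`GoodRedData N A hNk` : there is a base function `B : BaseFn.Data A (residue A) N` both of whose
charts have good reduction (the lifting properties T3, T3' in place form — the output of the
discriminant layer DISC).

* `k18_of_data` : (K18) for prime exponents `p ≠ ℓ` from one such `B`;
* `torsionESRelation_of_goodRedData`, `redTorsionInjective_of_goodRedData` : the two ESJ
  interface predicates from `GoodRedData` at the good pairs `(M, ℓ)`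
  (`ℓ ≥ 5`, or `ℓ = 3` and `2 ∣ M`, or `ℓ = 2` and `3 ∣ M`).
-/
import Fermat.Agent.ESJ.RedK.Descent
import Fermat.Agent.ESJ.Cong.OfKummerRoot
import Fermat.Agent.Lib.RedK.InstX
import Fermat.Agent.Lib.FF.CharP.ModLInst

set_option autoImplicit false

namespace Fermat.Agent.ESJ.RedK

open ModularCurve AlgebraicCurve HahnSeries Fermat.Agent.Lib.Red

noncomputable section

set_option synthInstance.maxHeartbeats 400000 in
set_option maxHeartbeats 1000000 in
/-- Good reduction data at `(N, A)`: a base function both of whose charts have the lifting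
property (T3). -/
def GoodRedData (N : ℕ) [NeZero N] (A : ValuationSubring (AlgebraicClosure ℚ))
    (hNk : (N : IsLocalRing.ResidueField A) ≠ 0) : Prop :=
  ∃ B : BaseFn.Data A (IsLocalRing.residue A) N,
    (∀ s : ↥(modularFunctionFieldFullC (IsLocalRing.ResidueField A) N),
        (∀ Q : Place (IsLocalRing.ResidueField A)
            ↥(modularFunctionFieldFullC (IsLocalRing.ResidueField A) N),
          0 ≤ Q.ord (B.xt (residue_eq_zero A) hNk) → 0 ≤ Q.ord s) →
        ∃ y : Ow A (IsLocalRing.residue A) N hNk,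
          redF A (IsLocalRing.residue A) N (residue_eq_zero A) hNk y = s ∧
          ∀ P : Place (AlgebraicClosure ℚ)
              ↥(laurentBaseChange (AlgebraicClosure ℚ) (modularFunctionFieldFull N)),
            0 ≤ P.ord B.x →
              0 ≤ P.ord (y : ↥(laurentBaseChange (AlgebraicClosure ℚ)
                (modularFunctionFieldFull N)))) ∧
    (∀ s : ↥(modularFunctionFieldFullC (IsLocalRing.ResidueField A) N),
        (∀ Q : Place (IsLocalRing.ResidueField A)
            ↥(modularFunctionFieldFullC (IsLocalRing.ResidueField A) N),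
          Q.ord (B.xt (residue_eq_zero A) hNk) ≤ 0 → 0 ≤ Q.ord s) →
        ∃ y : Ow A (IsLocalRing.residue A) N hNk,
          redF A (IsLocalRing.residue A) N (residue_eq_zero A) hNk y = s ∧
          ∀ P : Place (AlgebraicClosure ℚ)
              ↥(laurentBaseChange (AlgebraicClosure ℚ) (modularFunctionFieldFull N)),
            P.ord B.x ≤ 0 →
              0 ≤ P.ord (y : ↥(laurentBaseChange (AlgebraicClosure ℚ)
                (modularFunctionFieldFull N))))

set_option synthInstance.maxHeartbeats 400000 in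
set_option maxHeartbeats 1000000 in
/-- **(K18) for prime exponents from good reduction data.** -/
theorem k18_of_goodRedData (N : ℕ) [NeZero N] {ℓ : ℕ} (hℓ : ℓ.Prime)
    (A : ValuationSubring (AlgebraicClosure ℚ)) (hA : A.LiesOverPrime ℓ)
    (hNk : (N : IsLocalRing.ResidueField A) ≠ 0) (hD : GoodRedData N A hNk)
    (p : ℕ) (hp : p.Prime) (hpℓ : p ≠ ℓ) : K18 N A hNk p := by
  have : IsAlgClosed (IsLocalRing.ResidueField A) :=
    Fermat.Agent.Lib.FF.CharP.isAlgClosed_residueField A
  obtain ⟨B, hT3, hT3'⟩ := hD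
  intro h hO hord hred
  exact Fermat.Agent.Lib.RedK.InstX.k18_of_base N hℓ A hA (IsLocalRing.residue A) B
    (residue_eq_zero A) IsLocalRing.residue_surjective hNk hT3 hT3' p hp hpℓ h hO hord hred

/-- **`TorsionESRelation N p` from good reduction data at the good pairs.** -/
theorem torsionESRelation_of_goodRedData
    (hD : ∀ (M : ℕ) [NeZero M] (ℓ : ℕ), ℓ.Prime → ¬ ℓ ∣ M →
      (5 ≤ ℓ ∨ (ℓ = 3 ∧ 2 ∣ M) ∨ (ℓ = 2 ∧ 3 ∣ M)) →
      ∀ A : ValuationSubring (AlgebraicClosure ℚ), A.LiesOverPrime ℓ →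
      ∀ hMk : (M : IsLocalRing.ResidueField A) ≠ 0, GoodRedData M A hMk)
    (N p : ℕ) [NeZero N] : TorsionESRelation N p :=
  torsionESRelation_of_red23 (fun M _ ℓ hℓ hℓM hgood A hA hMk q hq hqℓ =>
    k18_of_goodRedData M hℓ A hA hMk (hD M ℓ hℓ hℓM hgood A hA hMk) q hq hqℓ) N p

/-- **`RedTorsionInjective N ℓ A` (the content of S18) from good reduction data at the good
pairs.** -/
theorem redTorsionInjective_of_goodRedData
    (hD : ∀ (M : ℕ) [NeZero M] (ℓ : ℕ), ℓ.Prime → ¬ ℓ ∣ M →
      (5 ≤ ℓ ∨ (ℓ = 3 ∧ 2 ∣ M) ∨ (ℓ = 2 ∧ 3 ∣ M)) →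
      ∀ A : ValuationSubring (AlgebraicClosure ℚ), A.LiesOverPrime ℓ →
      ∀ hMk : (M : IsLocalRing.ResidueField A) ≠ 0, GoodRedData M A hMk)
    (N : ℕ) [NeZero N] (ℓ : ℕ) (hℓ : ℓ.Prime) (hℓN : ¬ ℓ ∣ N)
    (A : ValuationSubring (AlgebraicClosure ℚ)) (hA : A.LiesOverPrime ℓ) :
    RedTorsionInjective N ℓ A :=
  Cong.TorsionESK.redTorsionInjective_of_good (fun M _ ℓ' hℓ' hℓM hgood A' hA' m _ hm => by
    have hMk := natCast_residue_ne_zero (N := M) hℓ' hA' hℓM
    exact kummerRoot_of_k18_prime hMk hℓ' hA' (fun q hq hqℓ =>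
      k18_of_goodRedData M hℓ' A' hA' hMk (hD M ℓ' hℓ' hℓM hgood A' hA' hMk) q hq hqℓ) m hm)
    N ℓ hℓ hℓN A hA

end

end Fermat.Agent.ESJ.RedK
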