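/-
RED-K (helper95): good reduction data at the good pairs — the final instantiation.

`goodRedData`: for a prime `ℓ ∤ M` with `ℓ ≥ 5`, or `ℓ = 3` and `2 ∣ M`, or `ℓ = 2` and `3 ∣ M`,
and a valuation subring `A` of `ℚ̄` over `ℓ`, there is a base function both of whose charts have
good reduction (DISC: `Disc.lift_x`, `Disc.lift_inv`; branch data: `BranchH`).

Consequences (no hypotheses left):
* `torsionESRelation` : `TorsionESRelation N p` for all `N`, `p`;
* `redTorsionInjective` : `RedTorsionInjective N ℓ A` for all `ℓ ∤ N`.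
-/
import Fermat.Agent.ESJ.RedK.K18Data
import Fermat.Agent.Lib.Red.DiscInst
import Fermat.Agent.Lib.Red.BranchH

set_option autoImplicit false

namespace Fermat.Agent.ESJ.RedK

open ModularCurve AlgebraicCurve HahnSeries Fermat.Agent.Lib.Red

noncomputable section

set_option synthInstance.maxHeartbeats 400000 in
set_option maxHeartbeats 1000000 in
/-- Good reduction data from a base function satisfying the branch hypothesis on both charts. -/
theorem goodRedData_of_base (N : ℕ) [NeZero N] (A : ValuationSubring (AlgebraicClosure ℚ))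
    (hNk : (N : IsLocalRing.ResidueField A) ≠ 0)
    (B : BaseFn.Data A (IsLocalRing.residue A) N)
    (hbr : ∀ γ : IsLocalRing.ResidueField A, ∃ c₀ : A, IsLocalRing.residue A c₀ = γ ∧
      ∀ c : A, IsLocalRing.residue A c = γ → c ≠ c₀ →
      ∀ P : Place (AlgebraicClosure ℚ)
          ↥(laurentBaseChange (AlgebraicClosure ℚ) (modularFunctionFieldFull N)),
        0 < P.ord (B.x - algebraMap (AlgebraicClosure ℚ) _ (c : AlgebraicClosure ℚ)) →
        P.ord (B.x - algebraMap (AlgebraicClosure ℚ) _ (c : AlgebraicClosure ℚ)) = 1)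
    (hbr' : ∀ γ : IsLocalRing.ResidueField A, ∃ c₀ : A, IsLocalRing.residue A c₀ = γ ∧
      ∀ c : A, IsLocalRing.residue A c = γ → c ≠ c₀ →
      ∀ P : Place (AlgebraicClosure ℚ)
          ↥(laurentBaseChange (AlgebraicClosure ℚ) (modularFunctionFieldFull N)),
        0 < P.ord ((B.x)⁻¹ - algebraMap (AlgebraicClosure ℚ) _ (c : AlgebraicClosure ℚ)) →
        P.ord ((B.x)⁻¹ - algebraMap (AlgebraicClosure ℚ) _ (c : AlgebraicClosure ℚ)) = 1) :
    GoodRedData N A hNk := by
  have : IsAlgClosed (IsLocalRing.ResidueField A) :=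
    Fermat.Agent.Lib.FF.CharP.isAlgClosed_residueField A
  exact ⟨B,
    fun s hs => Disc.lift_x B (residue_eq_zero A) IsLocalRing.residue_surjective hNk hbr s hs,
    fun s hs => Disc.lift_inv B (residue_eq_zero A) IsLocalRing.residue_surjective hNk hbr' s hs⟩

/-- **Good reduction data at every good pair `(M, ℓ)`.** -/
theorem goodRedData (M : ℕ) [NeZero M] (ℓ : ℕ) (hℓ : ℓ.Prime) (hℓM : ¬ ℓ ∣ M)
    (hgood : 5 ≤ ℓ ∨ (ℓ = 3 ∧ 2 ∣ M) ∨ (ℓ = 2 ∧ 3 ∣ M))
    (A : ValuationSubring (AlgebraicClosure ℚ)) (hA : A.LiesOverPrime ℓ)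
    (hMk : (M : IsLocalRing.ResidueField A) ≠ 0) : GoodRedData M A hMk := by
  have hsurj : Function.Surjective (IsLocalRing.residue A) := IsLocalRing.residue_surjective
  rcases hgood with h5 | ⟨rfl, h2⟩ | ⟨rfl, h3⟩
  · -- `ℓ ≥ 5`: the base function `J(q^M)`
    have hndvd : ¬ ℓ ∣ 1728 := by
      intro hdvd
      have e : (1728 : ℕ) = 2 ^ 6 * 3 ^ 3 := by norm_num
      rw [e] at hdvd
      rcases (Nat.Prime.dvd_mul hℓ).mp hdvd with h | h
      · have := Nat.le_of_dvd (by norm_num) (hℓ.dvd_of_dvd_pow h)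
        omega
      · have := Nat.le_of_dvd (by norm_num) (hℓ.dvd_of_dvd_pow h)
        omega
    have h1728 : (1728 : IsLocalRing.ResidueField A) ≠ 0 := by
      have h := natCast_residue_ne_zero (N := 1728) hℓ hA hndvd
      exact_mod_cast h
    exact goodRedData_of_base M A hMk (BaseFn.Data.ofJ A (IsLocalRing.residue A) M)
      (BranchH.hbr_ofJ M hsurj h1728) (BranchH.hbr_ofJ_inv M hsurj h1728)
  · -- `ℓ = 3`, `2 ∣ M`: the Hauptmodul of level `2`
    obtain ⟨m, hm⟩ := h2
    have hM : M = m * 2 := by rw [hm, mul_comm]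
    have : NeZero m := ⟨by
      rintro rfl
      exact NeZero.ne M (by rw [hM, zero_mul])⟩
    have h2k : (2 : IsLocalRing.ResidueField A) ≠ 0 := by
      have h := natCast_residue_ne_zero (N := 2) hℓ hA (by norm_num)
      exact_mod_cast h
    exact goodRedData_of_base M A hMk (BaseFn.ofHaupt2 A (IsLocalRing.residue A) M m hM h2k)
      (BranchH.hbr_ofHaupt2 M m hM hsurj h2k) (BranchH.hbr_ofHaupt2_inv M m hM hsurj h2k)
  · -- `ℓ = 2`, `3 ∣ M`: the Hauptmodul of level `3`
    obtain ⟨m, hm⟩ := h3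
    have hM : M = m * 3 := by rw [hm, mul_comm]
    have : NeZero m := ⟨by
      rintro rfl
      exact NeZero.ne M (by rw [hM, zero_mul])⟩
    have h3k : (3 : IsLocalRing.ResidueField A) ≠ 0 := by
      have h := natCast_residue_ne_zero (N := 3) hℓ hA (by norm_num)
      exact_mod_cast h
    exact goodRedData_of_base M A hMk (BaseFn.ofHaupt3 A (IsLocalRing.residue A) M m hM h3k)
      (BranchH.hbr_ofHaupt3 M m hM hsurj h3k) (BranchH.hbr_ofHaupt3_inv M m hM hsurj h3k)

/-- **(E): the Eichler–Shimura relation and unramifiedness on torsion**, for all `N`, `p`. -/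
theorem torsionESRelation (N p : ℕ) [NeZero N] : TorsionESRelation N p :=
  torsionESRelation_of_goodRedData
    (fun M _ ℓ hℓ hℓM hgood A hA hMk => goodRedData M ℓ hℓ hℓM hgood A hA hMk) N p

/-- **R1: reduction is injective on prime-to-`ℓ` torsion**, for all `ℓ ∤ N`. -/
theorem redTorsionInjective (N : ℕ) [NeZero N] (ℓ : ℕ) (hℓ : ℓ.Prime) (hℓN : ¬ ℓ ∣ N)
    (A : ValuationSubring (AlgebraicClosure ℚ)) (hA : A.LiesOverPrime ℓ) :
    RedTorsionInjective N ℓ A :=
  redTorsionInjective_of_goodRedData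
    (fun M _ ℓ hℓ hℓM hgood A hA hMk => goodRedData M ℓ hℓ hℓM hgood A hA hMk) N ℓ hℓ hℓN A hA

end

end Fermat.Agent.ESJ.RedK
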