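import Fermat.Agent.ESJ.RedK.TorsionES
import Fermat.Agent.ESJ.Cong.TorsionESK

/-!
# RED-K: the adapters from (K18) in `Ow`/`redF` form to the ratio form `KummerRoot`

* `kummerRoot_of_k18` : `K18 N A hNk m → Cong.TorsionESK.KummerRoot N A m`;
* `kummerRoot_of_k18_prime` : (K18) for prime exponents `p ≠ ℓ` gives `KummerRoot N A m` for
  every `m` prime to `ℓ`;
* `natCast_residue_ne_zero` : the side condition `(N : k) ≠ 0` for `A` over `ℓ ∤ N`;
* `torsionESRelation_of_k18_prime` : the composite with helper43's consumer.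
-/

set_option autoImplicit false

namespace Fermat.Agent.ESJ.RedK

open ModularCurve AlgebraicCurve HahnSeries Fermat.Agent.Lib.Red Fermat.Agent.S24
open Fermat.Agent.ESJ.Cong

noncomputable section

variable {N : ℕ} [NeZero N] {A : ValuationSubring KQ}

omit [NeZero N] in
/-- `N` is invertible in the residue field of a valuation ring over `ℓ ∤ N`. -/
theorem natCast_residue_ne_zero {ℓ : ℕ} (hℓ : ℓ.Prime) (hA : A.LiesOverPrime ℓ)
    (hℓN : ¬ ℓ ∣ N) : (N : IsLocalRing.ResidueField A) ≠ 0 := by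
  haveI : CharP (IsLocalRing.ResidueField A) ℓ :=
    ConjAnalytic.charP_residueField_of_liesOver A hℓ hA
  exact fun h0 => hℓN ((CharP.cast_eq_zero_iff (IsLocalRing.ResidueField A) ℓ N).mp h0)

/-- **(K18) in `Ow`/`redF` form implies the ratio form `KummerRoot`.** -/
theorem kummerRoot_of_k18 (hNk : (N : IsLocalRing.ResidueField A) ≠ 0) {m : ℕ}
    (hK : K18 N A hNk m) : TorsionESK.KummerRoot N A m := by
  intro y z hy hz hzbar hyz hord
  have hY : RedTo A (IsLocalRing.residue A) (coeffMap A.subtype y)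
      (coeffMap (IsLocalRing.residue A) y) :=
    ⟨incl_mem_gaussRing A _ y, red_incl A _ y⟩
  have hZ : RedTo A (IsLocalRing.residue A) (coeffMap A.subtype z)
      (coeffMap (IsLocalRing.residue A) z) :=
    ⟨incl_mem_gaussRing A _ z, red_incl A _ z⟩
  have hZ0 : (⟨_, hz⟩ : modularFunctionFieldBar N) ≠ 0 := TorsionESK.incl_ne_zero hz hzbar
  have hY0 : (⟨_, hy⟩ : modularFunctionFieldBar N) ≠ 0 :=
    TorsionESK.incl_ne_zero hy (hyz ▸ hzbar)
  have hred : RedTo A (IsLocalRing.residue A)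
      (((⟨_, hy⟩ : modularFunctionFieldBar N) * (⟨_, hz⟩ : modularFunctionFieldBar N)⁻¹ :
        modularFunctionFieldBar N) : LaurentSeries KQ) 1 := by
    have h := hY.mul (hZ.inv hzbar)
    rw [hyz, mul_inv_cancel₀ hzbar] at h
    exact h
  obtain ⟨hO, hredF⟩ := (redTo_iff hNk _ 1).mp hred
  have hord' : ∀ P : Place KQ (modularFunctionFieldBar N), (m : ℤ) ∣
      P.ord ((⟨_, hy⟩ : modularFunctionFieldBar N) *
        (⟨_, hz⟩ : modularFunctionFieldBar N)⁻¹) := by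
    intro P
    rw [P.ord_mul hY0 (inv_ne_zero hZ0), P.ord_inv, ← sub_eq_add_neg]
    exact hord P
  obtain ⟨g, hg⟩ := hK _ hO hord' (Subtype.ext hredF)
  refine ⟨g, ?_⟩
  rw [hg]
  field_simp

/-- **(K18) for prime exponents `p ≠ ℓ` implies `KummerRoot N A m` for all `m` prime to `ℓ`.** -/
theorem kummerRoot_of_k18_prime (hNk : (N : IsLocalRing.ResidueField A) ≠ 0) {ℓ : ℕ}
    (hℓ : ℓ.Prime) (hA : A.LiesOverPrime ℓ)
    (hK : ∀ p : ℕ, p.Prime → p ≠ ℓ → K18 N A hNk p) (m : ℕ) (hm : ¬ ℓ ∣ m) :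
    TorsionESK.KummerRoot N A m :=
  kummerRoot_of_k18 hNk (k18_of_prime hNk hℓ hA hK m hm)

/-- The composite with the consumer `TorsionESK.torsionESRelation_of_kummerRoot`. -/
theorem torsionESRelation_of_k18_prime (N p : ℕ) [NeZero N]
    (hK : ∀ ℓ : ℕ, ℓ.Prime → ¬ ℓ ∣ N → ∀ A : ValuationSubring KQ, A.LiesOverPrime ℓ →
      ∀ hNk : (N : IsLocalRing.ResidueField A) ≠ 0, ∀ q : ℕ, q.Prime → q ≠ ℓ → K18 N A hNk q) :
    TorsionESRelation N p := by
  refine TorsionESK.torsionESRelation_of_kummerRoot N p (fun ℓ hℓ hℓNp A hA n => ?_)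
  have hℓN : ¬ ℓ ∣ N := fun h => hℓNp (h.mul_right p)
  have hℓp : ¬ ℓ ∣ p := fun h => hℓNp (h.mul_left N)
  have hNk := natCast_residue_ne_zero hℓ hA hℓN
  exact kummerRoot_of_k18_prime hNk hℓ hA (hK ℓ hℓ hℓN A hA hNk) (p ^ n)
    (fun h => hℓp (hℓ.dvd_of_dvd_pow h))

end

end Fermat.Agent.ESJ.RedK
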