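/-
ESJ / RED-K / RED-23 (helper41): the Kummer root statement at all "good pairs" `(M, ℓ)` from the
DISC deliverable (decision D8 of the RED layer), and hence the two ESJ interface predicates.

`ChartLift` / `ChartLiftInv` are the DISC deliverable as `Prop`s: for every base-function data
`B : BaseFn.Data A π N` over `ℚ̄` (any residue map `π` onto an algebraically closed field) whose
fibres are unramified up to one point per residue disc (hypothesis (H), `BranchH`), every function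
of the special fibre regular where `x̄` (resp. `x̄⁻¹`) is regular lifts to a function of `O_w`
regular where `x` (resp. `x⁻¹`) is regular.

* `k18_good` : `K18 M A hMk p` for primes `p ≠ ℓ` at the good pairs: `ℓ ≥ 5` (base function
  `J(q^M)`), `ℓ = 3` and `2 ∣ M` (base function `y₂(q^(M/2))`), `ℓ = 2` and `3 ∣ M`
  (base function `t₃(q^(M/3))`);
* `kummerRoot_good` : the hypothesis `hgood` of `Cong.TorsionESK.kummerRoot_of_good`;
* `torsionESRelation_of_chartLift` : `TorsionESRelation N p` for all `N`, `p`;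
* `redTorsionInjective_of_chartLift` : `RedTorsionInjective N ℓ A` for all `ℓ ∤ N`.
-/
import Mathlib
import Fermat.Agent.ESJ.Cong.OfKummerRoot
import Fermat.Agent.ESJ.RedK.KummerRootOfK18
import Fermat.Agent.Lib.RedK.InstX
import Fermat.Agent.Lib.Red.BranchH

set_option autoImplicit false
set_option linter.style.haveILetI false

namespace Fermat.Agent.ESJ.RedK

open ModularCurve AlgebraicCurve Fermat.Agent.Lib.Red Fermat.Agent.S24 Fermat.Agent.S28
  Fermat.Agent.ESJ.Cong Fermat.Agent.Lib.Red.BaseFn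

noncomputable section

/-- **The DISC deliverable for the chart `x`** (decision D8): good reduction of the affine chart
`x = B.x` of every base-function data `B` over `ℚ̄` satisfying the branch hypothesis (H). -/
def ChartLift : Prop :=
  ∀ (N : ℕ) [NeZero N] (A : ValuationSubring KQ) (k : Type) [Field k] [IsAlgClosed k]
    (π : A →+* k) (B : BaseFn.Data A π N) (hπ : ∀ a : A, ¬ IsUnit a → π a = 0)
    (_ : Function.Surjective π) (hNk : (N : k) ≠ 0),
    (∀ γ : k, ∃ c₀ : A, π c₀ = γ ∧ ∀ c : A, π c = γ → c ≠ c₀ →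
      ∀ P : Place KQ ↥(laurentBaseChange KQ (modularFunctionFieldFull N)),
        0 < P.ord (B.x - algebraMap KQ _ (c : KQ)) →
        P.ord (B.x - algebraMap KQ _ (c : KQ)) = 1) →
    ∀ s : ↥(modularFunctionFieldFullC k N),
      (∀ Q : Place k ↥(modularFunctionFieldFullC k N), 0 ≤ Q.ord (B.xt hπ hNk) → 0 ≤ Q.ord s) →
      ∃ y : Ow A π N hNk, redF A π N hπ hNk y = s ∧
        ∀ P : Place KQ ↥(laurentBaseChange KQ (modularFunctionFieldFull N)),
          0 ≤ P.ord B.x →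
            0 ≤ P.ord (y : ↥(laurentBaseChange KQ (modularFunctionFieldFull N)))

/-- **The DISC deliverable for the chart `x⁻¹`** (decision D8). -/
def ChartLiftInv : Prop :=
  ∀ (N : ℕ) [NeZero N] (A : ValuationSubring KQ) (k : Type) [Field k] [IsAlgClosed k]
    (π : A →+* k) (B : BaseFn.Data A π N) (hπ : ∀ a : A, ¬ IsUnit a → π a = 0)
    (_ : Function.Surjective π) (hNk : (N : k) ≠ 0),
    (∀ γ : k, ∃ c₀ : A, π c₀ = γ ∧ ∀ c : A, π c = γ → c ≠ c₀ →
      ∀ P : Place KQ ↥(laurentBaseChange KQ (modularFunctionFieldFull N)),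
        0 < P.ord ((B.x)⁻¹ - algebraMap KQ _ (c : KQ)) →
        P.ord ((B.x)⁻¹ - algebraMap KQ _ (c : KQ)) = 1) →
    ∀ s : ↥(modularFunctionFieldFullC k N),
      (∀ Q : Place k ↥(modularFunctionFieldFullC k N), Q.ord (B.xt hπ hNk) ≤ 0 → 0 ≤ Q.ord s) →
      ∃ y : Ow A π N hNk, redF A π N hπ hNk y = s ∧
        ∀ P : Place KQ ↥(laurentBaseChange KQ (modularFunctionFieldFull N)),
          P.ord B.x ≤ 0 →
            0 ≤ P.ord (y : ↥(laurentBaseChange KQ (modularFunctionFieldFull N)))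

section Generic

variable (hD : ChartLift) (hD' : ChartLiftInv)
include hD hD'

/-- (K18) for a prime exponent `p ≠ ℓ` and base-function data satisfying (H) in both charts. -/
theorem k18_of_chartLift (N : ℕ) [NeZero N] {ℓ : ℕ} (hℓ : ℓ.Prime) (A : ValuationSubring KQ)
    (hA : A.LiesOverPrime ℓ) {k : Type} [Field k] [IsAlgClosed k] (π : A →+* k)
    (B : BaseFn.Data A π N)
    (hπ : ∀ a : A, ¬ IsUnit a → π a = 0) (hsurj : Function.Surjective π) (hNk : (N : k) ≠ 0)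
    (hbr : ∀ γ : k, ∃ c₀ : A, π c₀ = γ ∧ ∀ c : A, π c = γ → c ≠ c₀ →
      ∀ P : Place KQ ↥(laurentBaseChange KQ (modularFunctionFieldFull N)),
        0 < P.ord (B.x - algebraMap KQ _ (c : KQ)) →
        P.ord (B.x - algebraMap KQ _ (c : KQ)) = 1)
    (hbr' : ∀ γ : k, ∃ c₀ : A, π c₀ = γ ∧ ∀ c : A, π c = γ → c ≠ c₀ →
      ∀ P : Place KQ ↥(laurentBaseChange KQ (modularFunctionFieldFull N)),
        0 < P.ord ((B.x)⁻¹ - algebraMap KQ _ (c : KQ)) →
        P.ord ((B.x)⁻¹ - algebraMap KQ _ (c : KQ)) = 1)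
    (p : ℕ) (hp : p.Prime) (hpℓ : p ≠ ℓ)
    (h : modularFunctionFieldBar N) (hO : h ∈ Ow A π N hNk)
    (hord : ∀ P : Place KQ (modularFunctionFieldBar N), (p : ℤ) ∣ P.ord h)
    (hred : redF A π N hπ hNk ⟨h, hO⟩ = 1) :
    ∃ g : modularFunctionFieldBar N, g ^ p = h :=
  Fermat.Agent.Lib.RedK.InstX.k18_of_base N hℓ A hA π B hπ hsurj hNk
    (hD N A k π B hπ hsurj hNk hbr) (hD' N A k π B hπ hsurj hNk hbr') p hp hpℓ h hO hord hred

/-- (K18), base function `J(q^N)`, residue characteristic prime to `6`. -/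
theorem k18_ofJ (N : ℕ) [NeZero N] {ℓ : ℕ} (hℓ : ℓ.Prime) (A : ValuationSubring KQ)
    (hA : A.LiesOverPrime ℓ) {k : Type} [Field k] [IsAlgClosed k] (π : A →+* k)
    (hπ : ∀ a : A, ¬ IsUnit a → π a = 0) (hsurj : Function.Surjective π) (hNk : (N : k) ≠ 0)
    (h1728 : (1728 : k) ≠ 0)
    (p : ℕ) (hp : p.Prime) (hpℓ : p ≠ ℓ)
    (h : modularFunctionFieldBar N) (hO : h ∈ Ow A π N hNk)
    (hord : ∀ P : Place KQ (modularFunctionFieldBar N), (p : ℤ) ∣ P.ord h)
    (hred : redF A π N hπ hNk ⟨h, hO⟩ = 1) :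
    ∃ g : modularFunctionFieldBar N, g ^ p = h :=
  k18_of_chartLift hD hD' N hℓ A hA π (BaseFn.Data.ofJ A π N) hπ hsurj hNk
    (BranchH.hbr_ofJ N hsurj h1728) (BranchH.hbr_ofJ_inv N hsurj h1728) p hp hpℓ h hO hord hred

/-- (K18), base function `y₂(q^m)` at level `M = m * 2`, odd residue characteristic. -/
theorem k18_ofHaupt2 (M m : ℕ) [NeZero M] [NeZero m] (hM : M = m * 2) {ℓ : ℕ} (hℓ : ℓ.Prime)
    (A : ValuationSubring KQ)
    (hA : A.LiesOverPrime ℓ) {k : Type} [Field k] [IsAlgClosed k] (π : A →+* k)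
    (hπ : ∀ a : A, ¬ IsUnit a → π a = 0) (hsurj : Function.Surjective π) (hMk : (M : k) ≠ 0)
    (h2 : (2 : k) ≠ 0)
    (p : ℕ) (hp : p.Prime) (hpℓ : p ≠ ℓ)
    (h : modularFunctionFieldBar M) (hO : h ∈ Ow A π M hMk)
    (hord : ∀ P : Place KQ (modularFunctionFieldBar M), (p : ℤ) ∣ P.ord h)
    (hred : redF A π M hπ hMk ⟨h, hO⟩ = 1) :
    ∃ g : modularFunctionFieldBar M, g ^ p = h :=
  k18_of_chartLift hD hD' M hℓ A hA π (ofHaupt2 A π M m hM h2) hπ hsurj hMk
    (BranchH.hbr_ofHaupt2 M m hM hsurj h2) (BranchH.hbr_ofHaupt2_inv M m hM hsurj h2)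
    p hp hpℓ h hO hord hred

/-- (K18), base function `t₃(q^m)` at level `M = m * 3`, residue characteristic `≠ 3`. -/
theorem k18_ofHaupt3 (M m : ℕ) [NeZero M] [NeZero m] (hM : M = m * 3) {ℓ : ℕ} (hℓ : ℓ.Prime)
    (A : ValuationSubring KQ)
    (hA : A.LiesOverPrime ℓ) {k : Type} [Field k] [IsAlgClosed k] (π : A →+* k)
    (hπ : ∀ a : A, ¬ IsUnit a → π a = 0) (hsurj : Function.Surjective π) (hMk : (M : k) ≠ 0)
    (h3 : (3 : k) ≠ 0)
    (p : ℕ) (hp : p.Prime) (hpℓ : p ≠ ℓ)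
    (h : modularFunctionFieldBar M) (hO : h ∈ Ow A π M hMk)
    (hord : ∀ P : Place KQ (modularFunctionFieldBar M), (p : ℤ) ∣ P.ord h)
    (hred : redF A π M hπ hMk ⟨h, hO⟩ = 1) :
    ∃ g : modularFunctionFieldBar M, g ^ p = h :=
  k18_of_chartLift hD hD' M hℓ A hA π (ofHaupt3 A π M m hM h3) hπ hsurj hMk
    (BranchH.hbr_ofHaupt3 M m hM hsurj h3) (BranchH.hbr_ofHaupt3_inv M m hM hsurj h3)
    p hp hpℓ h hO hord hred

/-- **(K18) at the good pairs**: `ℓ ≥ 5`; `ℓ = 3` and `2 ∣ M`; `ℓ = 2` and `3 ∣ M`. -/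
theorem k18_good (M : ℕ) [NeZero M] (ℓ : ℕ) (hℓ : ℓ.Prime)
    (hg : 5 ≤ ℓ ∨ (ℓ = 3 ∧ 2 ∣ M) ∨ (ℓ = 2 ∧ 3 ∣ M))
    (A : ValuationSubring KQ) (hA : A.LiesOverPrime ℓ)
    (hMk : (M : IsLocalRing.ResidueField A) ≠ 0) (p : ℕ) (hp : p.Prime) (hpℓ : p ≠ ℓ) :
    K18 M A hMk p := by
  haveI : IsAlgClosed (IsLocalRing.ResidueField A) :=
    Fermat.Agent.Lib.FF.CharP.isAlgClosed_residueField A
  have hsurj : Function.Surjective (IsLocalRing.residue A) := IsLocalRing.residue_surjective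
  have hcast : ∀ n : ℕ, ¬ ℓ ∣ n → (n : IsLocalRing.ResidueField A) ≠ 0 := fun n hn =>
    natCast_residue_ne_zero hℓ hA hn
  intro h hO hord hred
  rcases hg with h5 | ⟨rfl, h2M⟩ | ⟨rfl, h3M⟩
  · have h1728 : (1728 : IsLocalRing.ResidueField A) ≠ 0 := by
      have h1 := hcast 1728 (fun hdvd => by
        have h2 : ℓ ∣ 2 ^ 6 * 3 ^ 3 := by norm_num; exact hdvd
        rcases (Nat.Prime.dvd_mul hℓ).mp h2 with h | h
        · have := Nat.le_of_dvd (by norm_num) (hℓ.dvd_of_dvd_pow h)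
          omega
        · have := Nat.le_of_dvd (by norm_num) (hℓ.dvd_of_dvd_pow h)
          omega)
      exact_mod_cast h1
    exact k18_ofJ hD hD' M hℓ A hA (IsLocalRing.residue A) (residue_eq_zero A) hsurj hMk h1728
      p hp hpℓ h hO hord hred
  · obtain ⟨m, hm⟩ := h2M
    have hM : M = m * 2 := by omega
    haveI : NeZero m := ⟨by
      rintro rfl
      exact NeZero.ne M (by simpa using hM)⟩
    have h2 : (2 : IsLocalRing.ResidueField A) ≠ 0 := by
      have h1 := hcast 2 (by norm_num)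
      exact_mod_cast h1
    exact k18_ofHaupt2 hD hD' M m hM hℓ A hA (IsLocalRing.residue A) (residue_eq_zero A) hsurj
      hMk h2 p hp hpℓ h hO hord hred
  · obtain ⟨m, hm⟩ := h3M
    have hM : M = m * 3 := by omega
    haveI : NeZero m := ⟨by
      rintro rfl
      exact NeZero.ne M (by simpa using hM)⟩
    have h3 : (3 : IsLocalRing.ResidueField A) ≠ 0 := by
      have h1 := hcast 3 (by norm_num)
      exact_mod_cast h1
    exact k18_ofHaupt3 hD hD' M m hM hℓ A hA (IsLocalRing.residue A) (residue_eq_zero A) hsurj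
      hMk h3 p hp hpℓ h hO hord hred

/-- **The Kummer root statement at the good pairs** — the hypothesis `hgood` of
`Cong.TorsionESK.kummerRoot_of_good`, `redTorsionInjective_of_good`, `torsionESRelation_of_good`
and of `specializationExists_of_good_kummer`. -/
theorem kummerRoot_good :
    ∀ (M : ℕ) [NeZero M] (ℓ : ℕ), ℓ.Prime → ¬ ℓ ∣ M →
      (5 ≤ ℓ ∨ (ℓ = 3 ∧ 2 ∣ M) ∨ (ℓ = 2 ∧ 3 ∣ M)) →
      ∀ A : ValuationSubring (AlgebraicClosure ℚ), A.LiesOverPrime ℓ →
        ∀ m : ℕ, m ≠ 0 → ¬ ℓ ∣ m → TorsionESK.KummerRoot M A m := by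
  intro M _ ℓ hℓ hℓM hg A hA m _ hm
  have hMk : (M : IsLocalRing.ResidueField A) ≠ 0 := natCast_residue_ne_zero hℓ hA hℓM
  exact kummerRoot_of_k18_prime hMk hℓ hA
    (fun p hp hpℓ => k18_good hD hD' M ℓ hℓ hg A hA hMk p hp hpℓ) m hm

/-- **(E)**: `TorsionESRelation N p` for all `N`, `p` from the DISC deliverable. -/
theorem torsionESRelation_of_chartLift (N p : ℕ) [NeZero N] :
    Fermat.Agent.ESJ.TorsionESRelation N p :=
  TorsionESK.torsionESRelation_of_good (kummerRoot_good hD hD') N p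

/-- **R1**: `RedTorsionInjective N ℓ A` for all `ℓ ∤ N` from the DISC deliverable. -/
theorem redTorsionInjective_of_chartLift (N : ℕ) [NeZero N] (ℓ : ℕ) (hℓ : ℓ.Prime)
    (hℓN : ¬ ℓ ∣ N) (A : ValuationSubring (AlgebraicClosure ℚ)) (hA : A.LiesOverPrime ℓ) :
    Fermat.Agent.ESJ.RedTorsionInjective N ℓ A :=
  TorsionESK.redTorsionInjective_of_good (kummerRoot_good hD hD') N ℓ hℓ hℓN A hA

end Generic

end

end Fermat.Agent.ESJ.RedK
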