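/-
ESJ / RED-K / RED-23 (helper41): the DISC deliverable (`Lib/Red/DiscInst.lean`, helper15) plugged
into `ESJ/RedK/GoodOfLift.lean`.  UNCONDITIONAL:

* `kummerRoot_good_all` : the Kummer root statement `KummerRoot M A m` at all good pairs
  (`ℓ ≥ 5`; `ℓ = 3`, `2 ∣ M`; `ℓ = 2`, `3 ∣ M`);
* `kummerRoot_all` : `KummerRoot N A m` for every level `N`, every prime `ℓ ∤ N`, every valuation
  subring `A` of `ℚ̄` over `ℓ` and every `m ≠ 0` prime to `ℓ`;
* `torsionESRelation_all` : **(E)** `TorsionESRelation N p` for all `N`, `p`;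
* `redTorsionInjective_all` : **R1** `RedTorsionInjective N ℓ A` for all `ℓ ∤ N`, `A` over `ℓ`.
-/
import Mathlib
import Fermat.Agent.ESJ.RedK.GoodOfLift
import Fermat.Agent.Lib.Red.DiscInst

set_option autoImplicit false

namespace Fermat.Agent.ESJ.RedK

open ModularCurve AlgebraicCurve Fermat.Agent.Lib.Red Fermat.Agent.ESJ.Cong

/-- The DISC deliverable, chart `x`. -/
theorem chartLift : ChartLift := fun _ _ _ _ _ _ _ B hπ hsurj hNk hbr s hs =>
  Fermat.Agent.Lib.Red.Disc.lift_x B hπ hsurj hNk hbr s hs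

/-- The DISC deliverable, chart `x⁻¹`. -/
theorem chartLiftInv : ChartLiftInv := fun _ _ _ _ _ _ _ B hπ hsurj hNk hbr s hs =>
  Fermat.Agent.Lib.Red.Disc.lift_inv B hπ hsurj hNk hbr s hs

/-- **The Kummer root statement at all good pairs.** -/
theorem kummerRoot_good_all :
    ∀ (M : ℕ) [NeZero M] (ℓ : ℕ), ℓ.Prime → ¬ ℓ ∣ M →
      (5 ≤ ℓ ∨ (ℓ = 3 ∧ 2 ∣ M) ∨ (ℓ = 2 ∧ 3 ∣ M)) →
      ∀ A : ValuationSubring (AlgebraicClosure ℚ), A.LiesOverPrime ℓ →
        ∀ m : ℕ, m ≠ 0 → ¬ ℓ ∣ m → TorsionESK.KummerRoot M A m :=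
  kummerRoot_good chartLift chartLiftInv

/-- **The Kummer root statement at every level and every residue characteristic prime to the
level.** -/
theorem kummerRoot_all (N : ℕ) [NeZero N] (ℓ : ℕ) (hℓ : ℓ.Prime) (hℓN : ¬ ℓ ∣ N)
    (A : ValuationSubring (AlgebraicClosure ℚ)) (hA : A.LiesOverPrime ℓ) (m : ℕ) (hm0 : m ≠ 0)
    (hm : ¬ ℓ ∣ m) : TorsionESK.KummerRoot N A m :=
  TorsionESK.kummerRoot_of_good kummerRoot_good_all N ℓ hℓ hℓN A hA m hm0 hm

/-- **(E)**: the Eichler–Shimura relation and unramifiedness on torsion, for all `N`, `p`. -/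
theorem torsionESRelation_all (N p : ℕ) [NeZero N] : Fermat.Agent.ESJ.TorsionESRelation N p :=
  torsionESRelation_of_chartLift chartLift chartLiftInv N p

/-- **R1**: reduction is injective on torsion prime to `ℓ`, for all `ℓ ∤ N`. -/
theorem redTorsionInjective_all (N : ℕ) [NeZero N] (ℓ : ℕ) (hℓ : ℓ.Prime) (hℓN : ¬ ℓ ∣ N)
    (A : ValuationSubring (AlgebraicClosure ℚ)) (hA : A.LiesOverPrime ℓ) :
    Fermat.Agent.ESJ.RedTorsionInjective N ℓ A :=
  redTorsionInjective_of_chartLift chartLift chartLiftInv N ℓ hℓ hℓN A hA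

end Fermat.Agent.ESJ.RedK
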