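import Fermat.Agent.ESJ.RedK.Descent
import Fermat.Agent.Lib.RedK.Inst
import Fermat.Agent.Lib.FF.CharP.ModLInst

/-!
# RED-K: (K18) and `KummerRoot` from good reduction of the two charts (T3, T3')

The adapter between helper95's modular instance `Lib.RedK.Inst.k18_prime_of_T3` (generic residue
map `π : A →+* k`) and the predicates `K18` / `Cong.TorsionESK.KummerRoot`, which are stated for
the residue field of `A`.  The hypotheses `hT3`, `hT3'` are literally those of
`Fermat.Agent.ESJ.redTorsionInjective_of_lift` (the place form of good reduction of the charts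
`x = J(q^N)` and `1/x`, at `k := IsLocalRing.ResidueField A`, `π := IsLocalRing.residue A`).

* `k18_of_T3` : `K18 N A hNk p` for every prime `p ≠ ℓ`;
* `kummerRoot_of_T3` : `KummerRoot N A m` for every `m` prime to `ℓ`.
-/

set_option autoImplicit false

namespace Fermat.Agent.ESJ.RedK

open ModularCurve AlgebraicCurve HahnSeries Fermat.Agent.Lib.Red Fermat.Agent.S24
open Fermat.Agent.ESJ.Cong

noncomputable section

set_option maxHeartbeats 1000000 in
set_option synthInstance.maxHeartbeats 200000 in
/-- **(K18) for prime exponents from T3/T3'** (level `N`, `A` over `ℓ ∤ N`). -/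
theorem k18_of_T3 (N ℓ : ℕ) [NeZero N] (hℓ : ℓ.Prime) (A : ValuationSubring KQ)
    (hA : A.LiesOverPrime ℓ) (hNk : (N : IsLocalRing.ResidueField A) ≠ 0)
    (hT3 : ∀ s : ↥(modularFunctionFieldFullC (IsLocalRing.ResidueField A) N),
        (∀ Q : Place (IsLocalRing.ResidueField A)
            ↥(modularFunctionFieldFullC (IsLocalRing.ResidueField A) N),
          0 ≤ Q.ord (xk (IsLocalRing.ResidueField A) N) → 0 ≤ Q.ord s) →
        ∃ y : Ow A (IsLocalRing.residue A) N hNk,
          redF A (IsLocalRing.residue A) N (residue_eq_zero A) hNk y = s ∧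
          ∀ P : Place KQ ↥(laurentBaseChange KQ (modularFunctionFieldFull N)),
            0 ≤ P.ord (xL KQ N) →
              0 ≤ P.ord (y : ↥(laurentBaseChange KQ (modularFunctionFieldFull N))))
    (hT3' : ∀ s : ↥(modularFunctionFieldFullC (IsLocalRing.ResidueField A) N),
        (∀ Q : Place (IsLocalRing.ResidueField A)
            ↥(modularFunctionFieldFullC (IsLocalRing.ResidueField A) N),
          Q.ord (xk (IsLocalRing.ResidueField A) N) ≤ 0 → 0 ≤ Q.ord s) →
        ∃ y : Ow A (IsLocalRing.residue A) N hNk,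
          redF A (IsLocalRing.residue A) N (residue_eq_zero A) hNk y = s ∧
          ∀ P : Place KQ ↥(laurentBaseChange KQ (modularFunctionFieldFull N)),
            P.ord (xL KQ N) ≤ 0 →
              0 ≤ P.ord (y : ↥(laurentBaseChange KQ (modularFunctionFieldFull N))))
    (p : ℕ) (hp : p.Prime) (hpℓ : p ≠ ℓ) : K18 N A hNk p := by
  have : IsAlgClosed (IsLocalRing.ResidueField A) :=
    Fermat.Agent.Lib.FF.CharP.isAlgClosed_residueField A
  intro h hO hord hred
  exact Fermat.Agent.Lib.RedK.Inst.k18_prime_of_T3 N hℓ A hA (IsLocalRing.residue A)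
    (residue_eq_zero A) IsLocalRing.residue_surjective hNk hT3 hT3' p hp hpℓ h hO hord hred

set_option maxHeartbeats 1000000 in
set_option synthInstance.maxHeartbeats 200000 in
/-- **`KummerRoot` from T3/T3'**: for `A` over `ℓ ∤ N` and every `m` prime to `ℓ`. -/
theorem kummerRoot_of_T3 (N ℓ : ℕ) [NeZero N] (hℓ : ℓ.Prime) (A : ValuationSubring KQ)
    (hA : A.LiesOverPrime ℓ) (hNk : (N : IsLocalRing.ResidueField A) ≠ 0)
    (hT3 : ∀ s : ↥(modularFunctionFieldFullC (IsLocalRing.ResidueField A) N),
        (∀ Q : Place (IsLocalRing.ResidueField A)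
            ↥(modularFunctionFieldFullC (IsLocalRing.ResidueField A) N),
          0 ≤ Q.ord (xk (IsLocalRing.ResidueField A) N) → 0 ≤ Q.ord s) →
        ∃ y : Ow A (IsLocalRing.residue A) N hNk,
          redF A (IsLocalRing.residue A) N (residue_eq_zero A) hNk y = s ∧
          ∀ P : Place KQ ↥(laurentBaseChange KQ (modularFunctionFieldFull N)),
            0 ≤ P.ord (xL KQ N) →
              0 ≤ P.ord (y : ↥(laurentBaseChange KQ (modularFunctionFieldFull N))))
    (hT3' : ∀ s : ↥(modularFunctionFieldFullC (IsLocalRing.ResidueField A) N),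
        (∀ Q : Place (IsLocalRing.ResidueField A)
            ↥(modularFunctionFieldFullC (IsLocalRing.ResidueField A) N),
          Q.ord (xk (IsLocalRing.ResidueField A) N) ≤ 0 → 0 ≤ Q.ord s) →
        ∃ y : Ow A (IsLocalRing.residue A) N hNk,
          redF A (IsLocalRing.residue A) N (residue_eq_zero A) hNk y = s ∧
          ∀ P : Place KQ ↥(laurentBaseChange KQ (modularFunctionFieldFull N)),
            P.ord (xL KQ N) ≤ 0 →
              0 ≤ P.ord (y : ↥(laurentBaseChange KQ (modularFunctionFieldFull N))))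
    (m : ℕ) (hm : ¬ ℓ ∣ m) : TorsionESK.KummerRoot N A m :=
  kummerRoot_of_k18_prime hNk hℓ hA
    (fun p hp hpℓ => k18_of_T3 N ℓ hℓ A hA hNk hT3 hT3' p hp hpℓ) m hm

end

end Fermat.Agent.ESJ.RedK
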