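import Fermat.Agent.ESJ.RedK.GaussGal
import Fermat.Agent.Lib.Red.Ow
import Fermat.Agent.ESJ.Interfaces
import Fermat.Agent.ESJ.Jac.HeckeKummer
import Fermat.Agent.ESJ.Cong.NormRedAnalytic
import Fermat.Agent.ESJ.Cong.FrobAut
import Fermat.Agent.ESJ.Cong.GaloisRed
import Fermat.Agent.S24.PlaceBasic

/-!
# RED-K, consumer (a): `TorsionESRelation` from the Kummer statement (K18)

`K18 N A hNk m` : a function `h ∈ O_w` (the Gauss valuation ring of `ℚ̄·F_N` at `A`) all of whose
orders are divisible by `m` and whose reduction is `1` is an `m`-th power.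

* `k18_of_prime` : (K18) for all primes `p ≠ ℓ` implies (K18) for all `m` prime to `ℓ`.
* `torsionESRelation_of_k18` : (K18) at all `A` over `ℓ ∤ N p` implies `TorsionESRelation N p`
  (inertia acts trivially on `p`-power torsion, and a Frobenius `σ` satisfies
  `σ² - T_ℓ σ + ℓ = 0` there).  No place reduction is used.
-/

set_option autoImplicit false

open scoped IntermediateField

namespace Fermat.Agent.ESJ.RedK

open ModularCurve AlgebraicCurve HahnSeries Fermat.Agent.Lib.Red Fermat.Agent.S24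
open Fermat.Agent.S28.Chain Fermat.Agent.ESJ.Cong Fermat.Agent.ESJ.Jac
open Fermat.Agent.ESJ.Jac.HeckeKummer

noncomputable section

/-! ### The setting -/

section Setting

variable (N : ℕ) [NeZero N] (A : ValuationSubring KQ)

theorem residue_eq_zero (a : A) (ha : ¬ IsUnit a) : IsLocalRing.residue A a = 0 :=
  (IsLocalRing.residue_eq_zero_iff a).mpr ((IsLocalRing.mem_maximalIdeal a).mpr ha)

/-- **(K18)**: a function of `O_w` with all orders divisible by `m` and reduction `1` is an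
`m`-th power. -/
def K18 (hNk : (N : IsLocalRing.ResidueField A) ≠ 0) (m : ℕ) : Prop :=
  ∀ (h : modularFunctionFieldBar N) (hO : h ∈ Ow A (IsLocalRing.residue A) N hNk),
    (∀ P : Place KQ (modularFunctionFieldBar N), (m : ℤ) ∣ P.ord h) →
    redF A (IsLocalRing.residue A) N (residue_eq_zero A) hNk ⟨h, hO⟩ = 1 →
    ∃ g : modularFunctionFieldBar N, g ^ m = h

variable {N A}

/-- The relation `RedTo` for elements of the function field, in terms of `Ow` and `redF`. -/
theorem redTo_iff (hNk : (N : IsLocalRing.ResidueField A) ≠ 0) (f : modularFunctionFieldBar N)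
    (g : LaurentSeries (IsLocalRing.ResidueField A)) :
    RedTo A (IsLocalRing.residue A) (f : LaurentSeries KQ) g ↔
      ∃ hO : f ∈ Ow A (IsLocalRing.residue A) N hNk,
        ((redF A (IsLocalRing.residue A) N (residue_eq_zero A) hNk ⟨f, hO⟩ :
          modularFunctionFieldFullC (IsLocalRing.ResidueField A) N) :
            LaurentSeries (IsLocalRing.ResidueField A)) = g :=
  Iff.rfl

/-- Every nonzero function is a constant times a function with nonzero reduction. -/
theorem exists_scaling_redTo (hNk : (N : IsLocalRing.ResidueField A) ≠ 0)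
    (f : modularFunctionFieldBar N) (hf : f ≠ 0) :
    ∃ a : KQ, a ≠ 0 ∧ ∃ u : LaurentSeries (IsLocalRing.ResidueField A), u ≠ 0 ∧
      RedTo A (IsLocalRing.residue A)
        (((algebraMap KQ (modularFunctionFieldBar N) a * f : modularFunctionFieldBar N)) :
          LaurentSeries KQ) u := by
  obtain ⟨a, ha, hmem, hne⟩ := exists_scaling_Ow (residue_eq_zero A) hNk f hf
  refine ⟨a, ha, _, ?_, (redTo_iff hNk _ _).mpr ⟨hmem, rfl⟩⟩
  intro h0
  exact hne (Subtype.ext h0)

/-- Descent along `q ↦ q^ℓ`: a function `n` of the function field such that `n(q^ℓ)` lies in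
the Gauss ring lies itself in the Gauss ring. -/
theorem exists_redTo_of_qExpand (hNk : (N : IsLocalRing.ResidueField A) ≠ 0) (ℓ : ℕ) [NeZero ℓ]
    (n : modularFunctionFieldBar N) {G : LaurentSeries (IsLocalRing.ResidueField A)}
    (h : RedTo A (IsLocalRing.residue A) (qExpand KQ ℓ (n : LaurentSeries KQ)) G) :
    ∃ g, RedTo A (IsLocalRing.residue A) (n : LaurentSeries KQ) g ∧
      qExpand (IsLocalRing.ResidueField A) ℓ g = G := by
  rcases eq_or_ne n 0 with rfl | hn
  · refine ⟨0, RedTo.zero, ?_⟩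
    have h0 : RedTo A (IsLocalRing.residue A) (qExpand KQ ℓ (0 : LaurentSeries KQ)) 0 := by
      rw [map_zero]
      exact RedTo.zero
    rw [map_zero]
    exact h0.unique h
  · obtain ⟨a, ha, u, hu, hau⟩ := exists_scaling_redTo hNk n hn
    have e1 : (((algebraMap KQ (modularFunctionFieldBar N) a * n : modularFunctionFieldBar N)) :
        LaurentSeries KQ) = HahnSeries.C a * (n : LaurentSeries KQ) := by
      show algebraMap KQ (LaurentSeries KQ) a * (n : LaurentSeries KQ) = _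
      rw [Lib.Red.C_eq_algebraMap]
    rw [e1] at hau
    have hq := hau.qExpand ℓ
    rw [map_mul, qExpand_C] at hq
    have hu' : qExpand (IsLocalRing.ResidueField A) ℓ u ≠ 0 :=
      (map_ne_zero (qExpand (IsLocalRing.ResidueField A) ℓ)).mpr hu
    obtain ⟨b, -, hb⟩ := RedTo.of_const_mul (residue_eq_zero A) ha hau hq hu' h.mem
    refine ⟨_, hb, ?_⟩
    exact (hb.qExpand ℓ).unique h

omit [NeZero N] in
/-- The decomposition group acts on the Gauss ring compatibly with its action on the residue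
field. -/
theorem redTo_galois (σ : A.decompositionSubgroup ℚ) (f : modularFunctionFieldBar N)
    {u : LaurentSeries (IsLocalRing.ResidueField A)}
    (h : RedTo A (IsLocalRing.residue A) (f : LaurentSeries KQ) u) :
    RedTo A (IsLocalRing.residue A)
      (((arithmeticGalois (modularFunctionFieldFull N) (σ : KQ ≃ₐ[ℚ] KQ) • f :
        modularFunctionFieldBar N)) : LaurentSeries KQ)
      (coeffMap ((resAut A σ : IsLocalRing.ResidueField A ≃+* IsLocalRing.ResidueField A) :
        IsLocalRing.ResidueField A →+* IsLocalRing.ResidueField A) u) :=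
  h.coeffMap (((σ : KQ ≃ₐ[ℚ] KQ) : KQ →+* KQ)) (decompRingHom A σ)
    ((resAut A σ : IsLocalRing.ResidueField A ≃+* IsLocalRing.ResidueField A) :
      IsLocalRing.ResidueField A →+* IsLocalRing.ResidueField A)
    (fun a => coe_decompRingHom A σ a) (fun a => residue_decompRingHom A σ a)

/-- **The reduction of the Hecke norm** for an arbitrary element of the Gauss ring:
`red(Nm_α(β y))(q^ℓ) = ȳ(q^(ℓ²)) · ȳ^ℓ`. -/
theorem redTo_norm (hNk : (N : IsLocalRing.ResidueField A) ≠ 0) (ℓ : ℕ) [NeZero ℓ]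
    (hℓ : ℓ.Prime) (hℓN : ¬ ℓ ∣ N) (hA : A.LiesOverPrime ℓ) (y : modularFunctionFieldBar N)
    {u : LaurentSeries (IsLocalRing.ResidueField A)}
    (hy : RedTo A (IsLocalRing.residue A) (y : LaurentSeries KQ) u) :
    ∃ g, RedTo A (IsLocalRing.residue A)
        ((normAlong (heckeAlphaBar KQ N ℓ) (heckeBetaBar KQ N ℓ y) : modularFunctionFieldBar N) :
          LaurentSeries KQ) g ∧
      qExpand (IsLocalRing.ResidueField A) ℓ g =
        qExpand (IsLocalRing.ResidueField A) (ℓ * ℓ) u * u ^ ℓ := by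
  haveI : Fact ℓ.Prime := ⟨hℓ⟩
  haveI : CharP (IsLocalRing.ResidueField A) ℓ :=
    ConjAnalytic.charP_residueField_of_liesOver A hℓ hA
  haveI : NeZero (ℓ : KQ) := ⟨Nat.cast_ne_zero.mpr hℓ.ne_zero⟩
  obtain ⟨ζ0, hζ0⟩ := HasEnoughRootsOfUnity.exists_primitiveRoot KQ ℓ
  have hζ0A : ζ0 ∈ A :=
    ConjAnalytic.mem_valuationSubring_of_pow_eq_one A hℓ.pos hζ0.pow_eq_one
  have hζ0A' : ζ0⁻¹ ∈ A :=
    ConjAnalytic.mem_valuationSubring_of_pow_eq_one A hℓ.pos
      (by rw [inv_pow, hζ0.pow_eq_one, inv_one])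
  have hζ00 : ζ0 ≠ 0 := hζ0.ne_zero hℓ.ne_zero
  let ζA : Aˣ := ⟨⟨ζ0, hζ0A⟩, ⟨ζ0⁻¹, hζ0A'⟩, Subtype.ext (mul_inv_cancel₀ hζ00),
    Subtype.ext (inv_mul_cancel₀ hζ00)⟩
  let ζ : KQˣ := Units.map (A.subtype : A →* KQ) ζA
  have hζval : (ζ : KQ) = ζ0 := rfl
  have hζ : IsPrimitiveRoot ζ ℓ := IsPrimitiveRoot.coe_units_iff.mp (by rw [hζval]; exact hζ0)
  have hres : Units.map (IsLocalRing.residue A : A →* IsLocalRing.ResidueField A) ζA = 1 := by
    apply Units.ext
    apply ConjAnalytic.eq_one_of_pow_eq_one_of_charP ℓ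
    have h1 : (ζA : A) ^ ℓ = 1 := Subtype.ext hζ0.pow_eq_one
    show (IsLocalRing.residue A (ζA : A)) ^ ℓ = 1
    rw [← map_pow, h1, map_one]
  have hnorm := ConjAnalytic.qExpand_norm_heckeBeta N ℓ hℓ hℓN ζ hζ y
  have hprod : RedTo A (IsLocalRing.residue A)
      (∏ b ∈ Finset.range ℓ, rot (ζ ^ b) (y : LaurentSeries KQ))
      (∏ _b ∈ Finset.range ℓ, u) := by
    refine RedTo.prod _ _ _ (fun b _ => ?_)
    have h1 := hy.rot (ζA ^ b)
    rw [map_pow, map_pow, hres, one_pow, rot_one_apply] at h1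
    exact h1
  rw [Finset.prod_const, Finset.card_range] at hprod
  have hall := (hy.qExpand (ℓ * ℓ)).mul hprod
  have hall' : RedTo A (IsLocalRing.residue A)
      (qExpand KQ ℓ ((normAlong (heckeAlphaBar KQ N ℓ) (heckeBetaBar KQ N ℓ y) :
        modularFunctionFieldBar N) : LaurentSeries KQ))
      (qExpand (IsLocalRing.ResidueField A) (ℓ * ℓ) u * u ^ ℓ) :=
    hall.congr_left hnorm.symm
  exact exists_redTo_of_qExpand hNk ℓ _ hall'

end Setting

/-! ### Kummer pairs: semilinear automorphisms, constants -/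

section KummerPairs

variable {K F : Type*} [Field K] [Field F] [Algebra K F]

/-- Equivariance of Kummer pairs under semilinear automorphisms. -/
theorem isKummerPair_semilinear_smul {n : ℕ} {x : Pic0 K F} {f : F} (h : IsKummerPair n x f)
    (g : SemilinearAut K F) : IsKummerPair n (g • x) (g • f) := by
  obtain ⟨hf, D, rfl, hD⟩ := h
  refine ⟨by simpa using hf, SemilinearAut.degZeroSMulHom g D,
    (SemilinearAut.pic0_smul_mk g D).symm, fun w => ?_⟩
  rw [SemilinearAut.coe_degZeroSMulHom, SemilinearAut.divisor_smul_apply, hD (g⁻¹ • w)]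
  have h1 := SemilinearAut.ord_smul g (g⁻¹ • w) f
  rw [smul_inv_smul] at h1
  exact h1.symm

/-- Multiplying a Kummer function by a nonzero constant. -/
theorem isKummerPair_const_mul {n : ℕ} {x : Pic0 K F} {f : F} (h : IsKummerPair n x f) {c : K}
    (hc : c ≠ 0) : IsKummerPair n x (algebraMap K F c * f) := by
  obtain ⟨hf, D, rfl, hD⟩ := h
  have hc' : algebraMap K F c ≠ 0 := (map_ne_zero _).mpr hc
  refine ⟨mul_ne_zero hc' hf, D, rfl, fun v => ?_⟩
  rw [v.ord_mul hc' hf, Fermat.Agent.S24.ord_algebraMap, zero_add, hD v]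

theorem isKummerPair_sub {n : ℕ} {x x' : Pic0 K F} {f f' : F} (h : IsKummerPair n x f)
    (h' : IsKummerPair n x' f') : IsKummerPair n (x - x') (f * f'⁻¹) := by
  rw [sub_eq_add_neg]
  exact h.add h'.neg

/-- All orders of a Kummer function are divisible by `n`. -/
theorem IsKummerPair_dvd_ord {n : ℕ} {x : Pic0 K F} {f : F} (h : IsKummerPair n x f)
    (v : Place K F) : (n : ℤ) ∣ v.ord f := by
  obtain ⟨-, D, -, hD⟩ := h
  exact ⟨_, (hD v).symm⟩

/-- A class whose Kummer function is an `n`-th power is zero. -/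
theorem eq_zero_of_isKummerPair_pow {n : ℕ} (hn : n ≠ 0) {x : Pic0 K F} {f g : F}
    (h : IsKummerPair n x f) (hg : g ^ n = f) : x = 0 := by
  have hg0 : g ≠ 0 := by
    rintro rfl
    rw [zero_pow hn] at hg
    exact h.ne_zero hg.symm
  have h' : IsKummerPair n x (1 * g ^ n) := by rw [one_mul, hg]; exact h
  exact h'.eq_zero_of_eq_mul_pow hn (fun v => v.ord_one) hg0

end KummerPairs

/-- A valuation subring contains the roots of its elements. -/
theorem mem_of_pow_mem {F : Type*} [Field F] (O : ValuationSubring F) {x : F} {p : ℕ}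
    (hp : 0 < p) (h : x ^ p ∈ O) : x ∈ O := by
  by_contra hx
  have hinv : x⁻¹ ∈ O := (O.mem_or_inv_mem x).resolve_left hx
  have hx0 : x ≠ 0 := fun h0 => hx (h0 ▸ O.zero_mem)
  apply hx
  have e : x = x ^ p * x⁻¹ ^ (p - 1) := by
    obtain ⟨q, rfl⟩ : ∃ q, p = q + 1 := ⟨p - 1, by omega⟩
    rw [Nat.add_sub_cancel, pow_succ, inv_pow]
    field_simp
  rw [e]
  exact O.mul_mem _ _ h (pow_mem hinv _)

/-! ### From prime exponents to all exponents prime to `ℓ` -/

section PrimeToAll

variable {N : ℕ} [NeZero N] {A : ValuationSubring KQ}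

/-- Roots of unity of prime order `p ≠ ℓ` in `k((q))` are constants, reductions of roots of
unity of `A`. -/
theorem exists_unit_of_pow_eq_one (A : ValuationSubring KQ) {ℓ p : ℕ} (hℓ : ℓ.Prime)
    (hA : A.LiesOverPrime ℓ) (hp : p.Prime) (hpℓ : p ≠ ℓ)
    {v : LaurentSeries (IsLocalRing.ResidueField A)} (hv : v ^ p = 1) :
    ∃ w : Aˣ, (w : A) ^ p = 1 ∧ v = HahnSeries.C (IsLocalRing.residue A (w : A)) := by
  haveI : Fact p.Prime := ⟨hp⟩
  haveI : CharP (IsLocalRing.ResidueField A) ℓ :=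
    ConjAnalytic.charP_residueField_of_liesOver A hℓ hA
  haveI : NeZero (p : KQ) := ⟨Nat.cast_ne_zero.mpr hp.ne_zero⟩
  haveI : NeZero p := ⟨hp.ne_zero⟩
  obtain ⟨ζ0, hζ0⟩ := HasEnoughRootsOfUnity.exists_primitiveRoot KQ p
  have hζ0A : ζ0 ∈ A :=
    ConjAnalytic.mem_valuationSubring_of_pow_eq_one A hp.pos hζ0.pow_eq_one
  have hζ0A' : ζ0⁻¹ ∈ A :=
    ConjAnalytic.mem_valuationSubring_of_pow_eq_one A hp.pos
      (by rw [inv_pow, hζ0.pow_eq_one, inv_one])
  have hζ00 : ζ0 ≠ 0 := hζ0.ne_zero hp.ne_zero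
  let ζA : Aˣ := ⟨⟨ζ0, hζ0A⟩, ⟨ζ0⁻¹, hζ0A'⟩, Subtype.ext (mul_inv_cancel₀ hζ00),
    Subtype.ext (inv_mul_cancel₀ hζ00)⟩
  have hζAp : (ζA : A) ^ p = 1 := Subtype.ext hζ0.pow_eq_one
  set ζb : IsLocalRing.ResidueField A := IsLocalRing.residue A (ζA : A) with hζb
  have hpow : ζb ^ p = 1 := by rw [hζb, ← map_pow, hζAp, map_one]
  have hne : ζb ≠ 1 := by
    intro h1
    have hsum : ∑ i ∈ Finset.range p, (ζA : A) ^ i = 0 := by
      apply Subtype.ext
      have := hζ0.geom_sum_eq_zero hp.one_lt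
      push_cast
      exact this
    have h2 := congrArg (IsLocalRing.residue A) hsum
    rw [map_sum, map_zero] at h2
    simp only [map_pow] at h2
    rw [← hζb, h1] at h2
    simp only [one_pow, Finset.sum_const, Finset.card_range, nsmul_eq_mul, mul_one] at h2
    have h3 := (CharP.cast_eq_zero_iff (IsLocalRing.ResidueField A) ℓ p).mp h2
    exact hpℓ ((Nat.prime_dvd_prime_iff_eq hℓ hp).mp h3).symm
  have hprim : IsPrimitiveRoot ζb p := by
    have h := IsPrimitiveRoot.orderOf ζb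
    rwa [orderOf_eq_prime hpow hne] at h
  have hprimC : IsPrimitiveRoot
      ((HahnSeries.C : IsLocalRing.ResidueField A →+* LaurentSeries (IsLocalRing.ResidueField A))
        ζb) p :=
    hprim.map_of_injective HahnSeries.C_injective
  obtain ⟨i, -, hi⟩ := hprimC.eq_pow_of_pow_eq_one hv
  refine ⟨ζA ^ i, ?_, ?_⟩
  · rw [Units.val_pow_eq_pow_val, ← pow_mul, mul_comm, pow_mul, hζAp, one_pow]
  · rw [← hi, Units.val_pow_eq_pow_val, map_pow, map_pow]

/-- **(K18) for prime exponents implies (K18) for all exponents prime to `ℓ`.** -/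
theorem k18_of_prime (hNk : (N : IsLocalRing.ResidueField A) ≠ 0) {ℓ : ℕ} (hℓ : ℓ.Prime)
    (hA : A.LiesOverPrime ℓ) (hK : ∀ p : ℕ, p.Prime → p ≠ ℓ → K18 N A hNk p) :
    ∀ m : ℕ, ¬ ℓ ∣ m → K18 N A hNk m := by
  intro m
  induction m using Nat.strong_induction_on with
  | _ m ih =>
    intro hℓm h hO hord hred
    rcases Nat.lt_or_ge m 2 with hm | hm
    · interval_cases m
      · exact absurd (dvd_zero ℓ) hℓm
      · exact ⟨h, pow_one h⟩
    · have hpp : m.minFac.Prime := Nat.minFac_prime (by omega)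
      obtain ⟨m', hm'⟩ : m.minFac ∣ m := Nat.minFac_dvd m
      have hpℓ : m.minFac ≠ ℓ := fun e => hℓm (e ▸ Nat.minFac_dvd m)
      have hm'pos : 0 < m' := by
        rcases Nat.eq_zero_or_pos m' with h0 | h0
        · rw [h0, mul_zero] at hm'
          omega
        · exact h0
      have hm'lt : m' < m := by
        have h2 := hpp.two_le
        nlinarith
      have hℓm' : ¬ ℓ ∣ m' := fun hd => hℓm (hm' ▸ Dvd.dvd.mul_left hd _)
      -- a root of order `minFac m`
      obtain ⟨g₀, hg₀⟩ := hK _ hpp hpℓ h hO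
        (fun P => (Int.natCast_dvd_natCast.mpr ⟨m', hm'⟩).trans (hord P)) hred
      have hh1 : RedTo A (IsLocalRing.residue A) (h : LaurentSeries KQ) 1 :=
        (redTo_iff hNk h 1).mpr ⟨hO, by rw [hred]; rfl⟩
      have hg₀O : g₀ ∈ Ow A (IsLocalRing.residue A) N hNk :=
        mem_of_pow_mem _ hpp.pos (hg₀ ▸ hO)
      have hg₀v := (redTo_iff hNk g₀ _).mpr ⟨hg₀O, rfl⟩
      have hvp := ((hg₀v.pow m.minFac).congr_left
        (show (g₀ : LaurentSeries KQ) ^ m.minFac = (h : LaurentSeries KQ) by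
          rw [← hg₀]; rfl)).unique hh1
      obtain ⟨w, hw, hv⟩ := exists_unit_of_pow_eq_one A hℓ hA hpp hpℓ hvp
      -- the corrected root
      have hw0 : ((w : A) : KQ) ≠ 0 := by
        intro h0
        have : (w : A) = 0 := Subtype.ext h0
        exact w.ne_zero this
      have hwp : ((w : A) : KQ) ^ m.minFac = 1 := congrArg (Subtype.val) hw
      have hg₁p : (algebraMap KQ (modularFunctionFieldBar N) (((w⁻¹ : Aˣ) : A) : KQ) * g₀) ^
          m.minFac = h := by
        rw [mul_pow, hg₀, ← map_pow]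
        have e : ((((w⁻¹ : Aˣ) : A) : KQ)) ^ m.minFac = 1 := by
          have h1 : ((((w⁻¹ : Aˣ) : A) : KQ)) * ((w : A) : KQ) = 1 :=
            congrArg (Subtype.val) (Units.inv_mul w)
          have h2 : ((((w⁻¹ : Aˣ) : A) : KQ)) = (((w : A) : KQ))⁻¹ :=
            eq_inv_of_mul_eq_one_left h1
          rw [h2, inv_pow, hwp, inv_one]
        rw [e, map_one, one_mul]
      have hg₁ : RedTo A (IsLocalRing.residue A)
          ((algebraMap KQ (modularFunctionFieldBar N) (((w⁻¹ : Aˣ) : A) : KQ) * g₀ :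
            modularFunctionFieldBar N) : LaurentSeries KQ) 1 := by
        have h1 := (RedTo.const (A := A) (π := IsLocalRing.residue A) ((w⁻¹ : Aˣ) : A)).mul hg₀v
        rw [hv, ← map_mul, ← map_mul, Units.inv_mul, map_one, map_one] at h1
        refine h1.congr_left ?_
        show _ = algebraMap KQ (LaurentSeries KQ) _ * (g₀ : LaurentSeries KQ)
        rw [Lib.Red.C_eq_algebraMap]
      obtain ⟨hg₁O, hg₁red⟩ := (redTo_iff hNk _ 1).mp hg₁
      have hord₁ : ∀ P : Place KQ (modularFunctionFieldBar N), (m' : ℤ) ∣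
          P.ord (algebraMap KQ (modularFunctionFieldBar N) (((w⁻¹ : Aˣ) : A) : KQ) * g₀) := by
        intro P
        have h1 := hord P
        have h2 : (m : ℤ) = (m.minFac : ℤ) * (m' : ℤ) := by exact_mod_cast hm'
        rw [← hg₁p, Fermat.Agent.ESJ.Jac.ord_pow, h2] at h1
        exact Int.dvd_of_mul_dvd_mul_left (Int.natCast_ne_zero.mpr hpp.ne_zero) h1
      obtain ⟨g₂, hg₂⟩ := ih m' hm'lt hℓm' _ hg₁O hord₁ (Subtype.ext hg₁red)
      exact ⟨g₂, by rw [hm', mul_comm, pow_mul, hg₂, hg₁p]⟩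

end PrimeToAll

/-! ### The Eichler–Shimura relation on torsion -/

section Final

variable {N : ℕ} [NeZero N] {A : ValuationSubring KQ}

/-- Every `m`-torsion class has a Kummer function with nonzero reduction. -/
theorem exists_isKummerPair_redTo (hNk : (N : IsLocalRing.ResidueField A) ≠ 0) {m : ℕ}
    {x : JZero N} (hx : (m : ℤ) • x = 0) :
    ∃ (f : modularFunctionFieldBar N) (u : LaurentSeries (IsLocalRing.ResidueField A)),
      IsKummerPair m x f ∧ u ≠ 0 ∧
        RedTo A (IsLocalRing.residue A) (f : LaurentSeries KQ) u := by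
  have hx' : x ∈ Pic0.torsion KQ (modularFunctionFieldBar N) m := Pic0.mem_torsion.mpr hx
  obtain ⟨f₀, hf₀⟩ := exists_isKummerPair hx'
  obtain ⟨a, ha, u, hu, hau⟩ := exists_scaling_redTo hNk f₀ hf₀.ne_zero
  exact ⟨_, u, isKummerPair_const_mul hf₀ ha, hu, hau⟩

/-- **Inertia acts trivially on `m`-torsion** (given (K18) for `m`). -/
theorem inertia_smul_eq (hNk : (N : IsLocalRing.ResidueField A) ≠ 0) {m : ℕ} (hm : m ≠ 0)
    (hK : K18 N A hNk m) {σ : GQ} (hσ : σ ∈ A.inertiaSubgroupIn ℚ) {x : JZero N}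
    (hx : (m : ℤ) • x = 0) : σ • x = x := by
  obtain ⟨f, u, hf, hu, hfu⟩ := exists_isKummerPair_redTo (A := A) hNk hx
  obtain ⟨hd, hres⟩ := resAut_eq_one_of_mem_inertia A hσ
  have h1 := redTo_galois (⟨σ, hd⟩ : A.decompositionSubgroup ℚ) f hfu
  rw [hres] at h1
  have hid : coeffMap (((1 : RingAut (IsLocalRing.ResidueField A)) :
      IsLocalRing.ResidueField A ≃+* IsLocalRing.ResidueField A) :
        IsLocalRing.ResidueField A →+* IsLocalRing.ResidueField A) u = u :=
    (coeffMap_congr (g := RingHom.id (IsLocalRing.ResidueField A))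
      (RingHom.ext fun _ => rfl) u).trans (coeffMap_id u)
  rw [hid] at h1
  have hσf := isKummerPair_semilinear_smul hf (arithmeticGalois (modularFunctionFieldFull N) σ)
  have hpair := isKummerPair_sub hσf hf
  have hred : RedTo A (IsLocalRing.residue A)
      (((arithmeticGalois (modularFunctionFieldFull N) σ • f) * f⁻¹ :
        modularFunctionFieldBar N) : LaurentSeries KQ) 1 := by
    have h2 := h1.mul (hfu.inv hu)
    rw [mul_inv_cancel₀ hu] at h2
    exact h2
  obtain ⟨hO, hredF⟩ := (redTo_iff hNk _ 1).mp hred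
  obtain ⟨g, hg⟩ := hK _ hO (IsKummerPair_dvd_ord hpair) (Subtype.ext hredF)
  have h0 := eq_zero_of_isKummerPair_pow hm hpair hg
  exact sub_eq_zero.mp h0

/-- **The Eichler–Shimura relation on `m`-torsion** for a Frobenius element (given (K18) for
`m`). -/
theorem frobenius_relation (hNk : (N : IsLocalRing.ResidueField A) ≠ 0) {ℓ : ℕ} (hℓ : ℓ.Prime)
    (hℓN : ¬ ℓ ∣ N) (hA : A.LiesOverPrime ℓ) {m : ℕ} (hm : m ≠ 0) (hK : K18 N A hNk m)
    {σ : GQ} (hσ : A.IsFrobeniusAt σ ℓ) {x : JZero N} (hx : (m : ℤ) • x = 0) :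
    σ • σ • x - heckeOperatorBar N ⟨ℓ, hℓ⟩ (σ • x) + ℓ • x = 0 := by
  haveI : NeZero ℓ := ⟨hℓ.ne_zero⟩
  haveI : Fact ℓ.Prime := ⟨hℓ⟩
  haveI : CharP (IsLocalRing.ResidueField A) ℓ :=
    ConjAnalytic.charP_residueField_of_liesOver A hℓ hA
  haveI : ExpChar (IsLocalRing.ResidueField A) ℓ := ExpChar.prime hℓ
  obtain ⟨f, u, hf, hu, hfu⟩ := exists_isKummerPair_redTo (A := A) hNk hx
  have hfrob : ((resAut A (⟨σ, hσ.mem_decompositionSubgroup⟩ : A.decompositionSubgroup ℚ) :
      IsLocalRing.ResidueField A ≃+* IsLocalRing.ResidueField A) :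
        IsLocalRing.ResidueField A →+* IsLocalRing.ResidueField A) =
      frobenius (IsLocalRing.ResidueField A) ℓ :=
    RingHom.ext fun a => by
      rw [frobenius_def]
      exact resAut_apply_of_isFrobeniusAt A hσ a
  have h1 := redTo_galois (⟨σ, hσ.mem_decompositionSubgroup⟩ : A.decompositionSubgroup ℚ) f hfu
  rw [hfrob] at h1
  have h2 := redTo_galois (⟨σ, hσ.mem_decompositionSubgroup⟩ : A.decompositionSubgroup ℚ) _ h1
  rw [hfrob] at h2
  obtain ⟨v, hv, hvq⟩ := redTo_norm hNk ℓ hℓ hℓN hA _ h1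
  -- the reduction of the norm
  have hv' : v = u ^ ℓ * coeffMap (frobenius (IsLocalRing.ResidueField A) ℓ)
      (coeffMap (frobenius (IsLocalRing.ResidueField A) ℓ) u) := by
    apply qExpand_injective (R := IsLocalRing.ResidueField A) ℓ
    rw [hvq, map_mul, ← FrobAut.pow_char, ← qExpand_qExpand, ← FrobAut.pow_char]
  have hu1 : coeffMap (frobenius (IsLocalRing.ResidueField A) ℓ) u ≠ 0 :=
    (map_ne_zero _).mpr hu
  have hu2 : coeffMap (frobenius (IsLocalRing.ResidueField A) ℓ)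
      (coeffMap (frobenius (IsLocalRing.ResidueField A) ℓ) u) ≠ 0 :=
    (map_ne_zero _).mpr hu1
  have hv0 : v ≠ 0 := by
    rw [hv']
    exact mul_ne_zero (pow_ne_zero ℓ hu) hu2
  -- Kummer pairs
  have hσf := isKummerPair_semilinear_smul hf (arithmeticGalois (modularFunctionFieldFull N) σ)
  have hσσf := isKummerPair_semilinear_smul hσf
    (arithmeticGalois (modularFunctionFieldFull N) σ)
  have hT := isKummerPair_heckeOperatorBar N ⟨ℓ, hℓ⟩ hσf
  have hℓx := hf.nsmul ℓ
  have hpair := (isKummerPair_sub hσσf hT).add hℓx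
  -- the reduction of the Kummer function is `1`
  have hred := (h2.mul (hv.inv hv0)).mul (hfu.pow ℓ)
  have e1 : coeffMap (frobenius (IsLocalRing.ResidueField A) ℓ)
      (coeffMap (frobenius (IsLocalRing.ResidueField A) ℓ) u) * v⁻¹ * u ^ ℓ = 1 := by
    rw [hv']
    field_simp
  rw [e1] at hred
  have hred' : RedTo A (IsLocalRing.residue A)
      (((arithmeticGalois (modularFunctionFieldFull N) σ •
          arithmeticGalois (modularFunctionFieldFull N) σ • f) *
        (normAlong (heckeAlphaBar KQ N ℓ) (heckeBetaBar KQ N ℓ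
          (arithmeticGalois (modularFunctionFieldFull N) σ • f)))⁻¹ * f ^ ℓ :
        modularFunctionFieldBar N) : LaurentSeries KQ) 1 := hred
  obtain ⟨hO, hredF⟩ := (redTo_iff hNk _ 1).mp hred'
  obtain ⟨g, hg⟩ := hK _ hO (IsKummerPair_dvd_ord hpair) (Subtype.ext hredF)
  exact eq_zero_of_isKummerPair_pow hm hpair hg

/-- **RED-K, consumer (a)**: (K18) for prime exponents at all valuation rings over primes
`ℓ ∤ N p` implies `TorsionESRelation N p`. -/
theorem torsionESRelation_of_k18 (N p : ℕ) [NeZero N]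
    (hK : ∀ ℓ : ℕ, ℓ.Prime → ¬ ℓ ∣ N * p → ∀ A : ValuationSubring KQ, A.LiesOverPrime ℓ →
      ∀ hNk : (N : IsLocalRing.ResidueField A) ≠ 0, ∀ q : ℕ, q.Prime → q ≠ ℓ → K18 N A hNk q) :
    TorsionESRelation N p := by
  intro ℓ hℓ hℓNp A hA
  have hℓN : ¬ ℓ ∣ N := fun h => hℓNp (h.mul_right p)
  have hℓp : ¬ ℓ ∣ p := fun h => hℓNp (h.mul_left N)
  haveI : CharP (IsLocalRing.ResidueField A) ℓ :=
    ConjAnalytic.charP_residueField_of_liesOver A hℓ hA
  have hNk : (N : IsLocalRing.ResidueField A) ≠ 0 := fun h0 =>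
    hℓN ((CharP.cast_eq_zero_iff (IsLocalRing.ResidueField A) ℓ N).mp h0)
  have hKm : ∀ n : ℕ, K18 N A hNk (p ^ n) := fun n =>
    k18_of_prime hNk hℓ hA (hK ℓ hℓ hℓNp A hA hNk) (p ^ n)
      (fun h => hℓp (hℓ.dvd_of_dvd_pow h))
  have hp0 : p ≠ 0 := by
    rintro rfl
    exact hℓp (dvd_zero ℓ)
  refine ⟨fun σ hσ x hx => ?_, fun σ hσ x hx => ?_⟩
  · obtain ⟨n, hx⟩ := hx
    exact inertia_smul_eq hNk (pow_ne_zero n hp0) (hKm n) hσ
      (by rw [natCast_zsmul]; exact hx)
  · obtain ⟨n, hx⟩ := hx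
    exact frobenius_relation hNk hℓ hℓN hA (pow_ne_zero n hp0) (hKm n) hσ
      (by rw [natCast_zsmul]; exact hx)

end Final

end

end Fermat.Agent.ESJ.RedK
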